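/-
Program R, package [BC], part 1: the field embedding of the prelude's formal function field
`laurentBaseChange L (modularFunctionFieldFull N) ⊆ L((q))` (for a field `L` with `e : L →+* ℂ`,
e.g. `L = ℚ̄`) into the fraction field `MerInf` of the ring of holomorphic `1`-periodic functions
on `ℍ` which are meromorphic at `i∞`.

Both fields embed into `ℂ((q))` (the formal one coefficientwise via `e`, the analytic one by the
Laurent `q`-expansion `laurentExp 1`), and the image of the formal field lies in the image of the
analytic one because the generators `j(q^d)` are the expansions of `z ↦ jInv (d z)`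
(`QExp.laurentExp_jInv`, `QExp.laurentExp_scale`).

Main definitions / results (namespace `Fermat.Agent.ProgramR.BarField`):
* `scaleH d τ = d • τ`, `jScaled d : merRing 1` (the function `z ↦ jInv (d z)`)
* `MerInf`, `expMer : MerInf →+* LaurentSeries ℂ` (injective)
* `embed e N : ↥(laurentBaseChange L (modularFunctionFieldFull N)) →+* MerInf`
* `expMer_embed`, `embed_algebraMap`, `embed_jd`
-/
import Mathlib
import Fermat.Prelude.Def_ModularCurve_ArithmeticGalois
import Fermat.Prelude.Thm_ModularCurve_coeffMap_qExpand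
import Fermat.Agent.ProgramR.QExp.JExp
import Fermat.Agent.ProgramR.QExp.Affine

set_option autoImplicit false

noncomputable section

open Complex Filter Function Topology
open UpperHalfPlane hiding I
open scoped Real Manifold

namespace Fermat.Agent.ProgramR.BarField

open ModularCurve Fermat.Agent.ProgramR.QExp Fermat.Agent.ProgramR.LevelOne

/-- `τ ↦ d τ` on the upper half plane (`d ≥ 1`). -/
def scaleH (d : ℕ) [NeZero d] (τ : ℍ) : ℍ :=
  ⟨(d : ℂ) * τ, by
    have hd : (0 : ℝ) < d := by exact_mod_cast Nat.pos_of_ne_zero (NeZero.ne d)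
    simpa using mul_pos hd τ.im_pos⟩

@[simp] lemma coe_scaleH (d : ℕ) [NeZero d] (τ : ℍ) : (scaleH d τ : ℂ) = (d : ℂ) * τ := rfl

/-- The function `z ↦ jInv (d z)`. -/
def jScaledFun (d : ℕ) [NeZero d] : ℍ → ℂ := jInv ∘ scaleH d

lemma isMeroAtInfty_jScaledFun (d : ℕ) [NeZero d] : IsMeroAtInfty 1 (d * 1) (jScaledFun d) :=
  isMeroAtInfty_scale (Nat.pos_of_ne_zero (NeZero.ne d)) isMeroAtInfty_jInv (scaleH d)
    (coe_scaleH d)

/-- `z ↦ jInv (d z)` as an element of `merRing 1`. -/
def jScaled (d : ℕ) [NeZero d] : merRing 1 one_pos :=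
  ⟨jScaledFun d, _, isMeroAtInfty_jScaledFun d⟩

lemma laurentExp_jScaledFun (d : ℕ) [NeZero d] :
    laurentExp 1 (jScaledFun d) = qExpand ℂ d (jqModC ℂ) := by
  rw [jScaledFun, laurentExp_scale isMeroAtInfty_jInv (scaleH d) (coe_scaleH d), laurentExp_jInv]

/-- The fraction field of `merRing 1`. -/
abbrev MerInf : Type := FractionRing (merRing 1 one_pos)

instance : IsDomain (merRing 1 one_pos) := by
  have : NoZeroDivisors (merRing 1 one_pos) := by
    refine ⟨fun {a b} hab => ?_⟩
    have h1 := congrArg (laurentExpHom 1 one_pos) hab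
    rw [map_mul, map_zero] at h1
    rcases mul_eq_zero.mp h1 with h | h
    · left
      exact laurentExpHom_injective 1 one_pos (h.trans (map_zero _).symm)
    · right
      exact laurentExpHom_injective 1 one_pos (h.trans (map_zero _).symm)
  have : Nontrivial (merRing 1 one_pos) := by
    refine ⟨⟨0, 1, fun h => ?_⟩⟩
    have h1 := congrArg (laurentExpHom 1 one_pos) h
    rw [map_zero, map_one] at h1
    exact zero_ne_one h1
  exact NoZeroDivisors.to_isDomain _

/-- The Laurent expansion on `MerInf`. -/
def expMer : MerInf →+* LaurentSeries ℂ :=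
  IsFractionRing.lift (laurentExpHom_injective 1 one_pos)

lemma expMer_algebraMap (f : merRing 1 one_pos) :
    expMer (algebraMap (merRing 1 one_pos) MerInf f) = laurentExp 1 (f : ℍ → ℂ) :=
  IsFractionRing.lift_algebraMap _ f

lemma expMer_injective : Function.Injective expMer := expMer.injective

section Embedding

variable {L : Type*} [Field L] [Algebra ℚ L] (e : L →+* ℂ)

/-- The constant function as an element of `merRing 1`. -/
def constMer (c : ℂ) : merRing 1 one_pos :=
  ⟨fun _ => c, 0, IsMeroAtInfty.of_isHolPerBdd (IsHolPerBdd.const 1 c)⟩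

lemma laurentExp_constMer (c : ℂ) :
    laurentExp 1 ((constMer c : merRing 1 one_pos) : ℍ → ℂ) = HahnSeries.C c :=
  laurentExp_const one_pos c

lemma coeffMap_algebraMap' (a : L) :
    coeffMap e (algebraMap L (LaurentSeries L) a) = HahnSeries.C (e a) := by
  rw [algebraMap_laurentSeries_eq_single, coeffMap_single]
  rfl

lemma coeffMap_coeffEmb (x : LaurentSeries ℚ) :
    coeffMap e (coeffEmb L x) = coeffMap (algebraMap ℚ ℂ) x := by
  rw [coeffEmb, coeffMap_coeffMap]
  exact coeffMap_congr (Subsingleton.elim _ _) x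

lemma coeffMap_rat_jq : coeffMap (algebraMap ℚ ℂ) jq = jqModC ℂ := by
  rw [← jqModC_rat]
  exact map_jqModC (algebraMap ℚ ℂ)

lemma coeffMap_rat_qExpand_jq (d : ℕ) [NeZero d] :
    coeffMap (algebraMap ℚ ℂ) (qExpand ℚ d jq) = qExpand ℂ d (jqModC ℂ) := by
  rw [coeffMap_qExpand, coeffMap_rat_jq]

/-- The rational function field of level `N` lands in the image of `expMer`. -/
lemma coeffMap_rat_mem_fieldRange (N : ℕ) {y : LaurentSeries ℚ}
    (hy : y ∈ modularFunctionFieldFull N) :
    coeffMap (algebraMap ℚ ℂ) y ∈ expMer.fieldRange := by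
  have hle : modularFunctionFieldFull N ≤
      (IntermediateField.adjoin ℚ (divisorExpansions N)) := le_rfl
  -- the comap subfield
  let T : Subfield (LaurentSeries ℚ) := expMer.fieldRange.comap (coeffMap (algebraMap ℚ ℂ))
  suffices h : (modularFunctionFieldFull N).toSubfield ≤ T from h hy
  rw [modularFunctionFieldFull, IntermediateField.adjoin, Subfield.closure_le]
  rintro x (⟨a, rfl⟩ | ⟨d, hd, hdN, rfl⟩)
  · -- constants
    show coeffMap (algebraMap ℚ ℂ) (algebraMap ℚ (LaurentSeries ℚ) a) ∈ expMer.fieldRange
    rw [RingHom.mem_fieldRange]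
    refine ⟨algebraMap _ _ (constMer (algebraMap ℚ ℂ a)), ?_⟩
    rw [expMer_algebraMap, laurentExp_constMer, algebraMap_laurentSeries_eq_single,
      coeffMap_single]
    rfl
  · -- generators
    haveI := hd
    show coeffMap (algebraMap ℚ ℂ) (qExpand ℚ d jq) ∈ expMer.fieldRange
    rw [RingHom.mem_fieldRange]
    refine ⟨algebraMap _ _ (jScaled d), ?_⟩
    rw [expMer_algebraMap, coeffMap_rat_qExpand_jq]
    exact laurentExp_jScaledFun d

/-- The base-changed function field lands in the image of `expMer`. -/
lemma coeffMap_mem_fieldRange (N : ℕ) {x : LaurentSeries L}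
    (hx : x ∈ laurentBaseChange L (modularFunctionFieldFull N)) :
    coeffMap e x ∈ expMer.fieldRange := by
  let T : Subfield (LaurentSeries L) := expMer.fieldRange.comap (coeffMap e)
  suffices h : (laurentBaseChange L (modularFunctionFieldFull N)).toSubfield ≤ T from h hx
  rw [laurentBaseChange, IntermediateField.adjoin, Subfield.closure_le]
  rintro x (⟨a, rfl⟩ | ⟨y, hy, rfl⟩)
  · show coeffMap e (algebraMap L (LaurentSeries L) a) ∈ expMer.fieldRange
    rw [RingHom.mem_fieldRange]
    refine ⟨algebraMap _ _ (constMer (e a)), ?_⟩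
    rw [expMer_algebraMap, laurentExp_constMer, coeffMap_algebraMap']
  · show coeffMap e (coeffEmb L y) ∈ expMer.fieldRange
    rw [coeffMap_coeffEmb]
    exact coeffMap_rat_mem_fieldRange N hy

/-- `expMer` as an isomorphism onto its range. -/
def expMerEquiv : MerInf ≃+* expMer.fieldRange :=
  RingEquiv.ofBijective expMer.rangeRestrictField
    ⟨fun a b h => expMer_injective (congrArg Subtype.val h),
     fun ⟨y, hy⟩ => by
      obtain ⟨x, rfl⟩ := RingHom.mem_fieldRange.mp hy
      exact ⟨x, rfl⟩⟩

lemma coe_expMerEquiv (x : MerInf) : ((expMerEquiv x : expMer.fieldRange) : LaurentSeries ℂ)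
    = expMer x := rfl

/-- **The embedding of the formal function field over `L` into `MerInf`.** -/
def embed (N : ℕ) : ↥(laurentBaseChange L (modularFunctionFieldFull N)) →+* MerInf :=
  (expMerEquiv.symm : expMer.fieldRange →+* MerInf).comp
    (((coeffMap e).comp (laurentBaseChange L (modularFunctionFieldFull N)).val.toRingHom).codRestrict
      expMer.fieldRange (fun x => coeffMap_mem_fieldRange e N x.2))

/-- Characterisation: the expansion of `embed e N x` is `x` with coefficients mapped by `e`. -/
theorem expMer_embed (N : ℕ) (x : ↥(laurentBaseChange L (modularFunctionFieldFull N))) :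
    expMer (embed e N x) = coeffMap e (x : LaurentSeries L) := by
  have h := coe_expMerEquiv (embed e N x)
  rw [← h]
  simp only [embed, RingHom.coe_comp, Function.comp_apply, RingHom.coe_coe,
    RingEquiv.apply_symm_apply]
  rfl

theorem embed_eq_iff (N : ℕ) (x : ↥(laurentBaseChange L (modularFunctionFieldFull N)))
    (y : MerInf) : embed e N x = y ↔ coeffMap e (x : LaurentSeries L) = expMer y := by
  rw [← expMer_embed]
  exact ⟨fun h => by rw [h], fun h => expMer_injective h⟩

theorem embed_algebraMap (N : ℕ) (a : L) :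
    embed e N (algebraMap L _ a) = algebraMap _ MerInf (constMer (e a)) := by
  rw [embed_eq_iff, expMer_algebraMap, laurentExp_constMer]
  exact coeffMap_algebraMap' e a

/-- The element `j(q^d)` of the formal function field. -/
def jdBar (N : ℕ) (d : ℕ) [NeZero d] (hd : d ∣ N) :
    ↥(laurentBaseChange L (modularFunctionFieldFull N)) :=
  ⟨coeffEmb L (qExpand ℚ d jq), coeffEmb_mem_laurentBaseChange L (jqd_mem_full N hd)⟩

theorem embed_jdBar (N : ℕ) (d : ℕ) [NeZero d] (hd : d ∣ N) :
    embed e N (jdBar N d hd) = algebraMap _ MerInf (jScaled d) := by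
  rw [embed_eq_iff, expMer_algebraMap]
  show coeffMap e (coeffEmb L (qExpand ℚ d jq)) = laurentExp 1 (jScaledFun d)
  rw [coeffMap_coeffEmb, coeffMap_rat_qExpand_jq, laurentExp_jScaledFun]

end Embedding

end Fermat.Agent.ProgramR.BarField
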