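/-
Program R, package [BC], part 2: the field embedding
`Φ = toFunField e N : ↥(laurentBaseChange L (modularFunctionFieldFull N)) →+* WH0.FunField (Gamma0 N)`
of the prelude's formal function field over `L` (with `e : L →+* ℂ`) into the analytic function
field `Frac (WH0 Γ₀(N))`, characterised by `qExpFF N (Φ x) = coeffMap e x` where
`qExpFF N : WH0.FunField (Gamma0 N) →+* ℂ((q))` is the `q`-expansion at `i∞`.
-/
import Mathlib
import Fermat.Agent.ProgramR.BarField.Embed
import Fermat.Agent.ProgramR.Analytic.WH0Dedekind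
import Fermat.Agent.ProgramR.Analytic.JNWH0
import Fermat.Agent.ProgramR.CuspLocal.Translate

set_option autoImplicit false
set_option linter.unusedSectionVars false

noncomputable section

open Complex Filter Function Topology CongruenceSubgroup
open UpperHalfPlane hiding I
open scoped Real Manifold MatrixGroups

namespace Fermat.Agent.ProgramR.BarField

open ModularCurve Fermat.Agent.ProgramR.QExp Fermat.Agent.ProgramR.LevelOne

variable (N : ℕ) [NeZero N]

lemma T_mem_Gamma0 : (ModularGroup.T : SL(2, ℤ)) ∈ Gamma0 N := by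
  rw [Gamma0_mem]
  simp [ModularGroup.T]

/-- Elements of `WH0 Γ₀(N)` are `1`-periodic and meromorphic at `i∞`. -/
lemma mem_merRing_of_mem_WH0 {h : ℍ → ℂ} (hh : h ∈ WH0 (Gamma0 N)) :
    h ∈ merRing 1 one_pos := by
  have hT : (1 : SL(2, ℤ))⁻¹ * (ModularGroup.T ^ ((1 : ℕ) : ℤ) * 1) ∈ Gamma0 N := by
    simpa using T_mem_Gamma0 N
  obtain ⟨m, hm⟩ := CuspLocal.exists_isMeroAtInfty_slTranslate (mem_WH0.mp hh) 1 one_pos hT
  rw [CuspLocal.slTranslate_one, Nat.cast_one] at hm
  exact ⟨m, hm⟩

/-- The inclusion `WH0 Γ₀(N) → merRing 1`. -/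
def wh0ToMer : ↥(WH0 (Gamma0 N)) →+* merRing 1 one_pos where
  toFun h := ⟨h.1, mem_merRing_of_mem_WH0 N h.2⟩
  map_one' := rfl
  map_mul' _ _ := rfl
  map_zero' := rfl
  map_add' _ _ := rfl

lemma wh0ToMer_injective : Function.Injective (wh0ToMer N) := by
  intro a b h
  exact Subtype.ext (congrArg (fun f : merRing 1 one_pos => (f : ℍ → ℂ)) h)

/-- The `q`-expansion at `i∞` on `WH0 Γ₀(N)`. -/
def qExpWH0 : ↥(WH0 (Gamma0 N)) →+* LaurentSeries ℂ :=
  (laurentExpHom 1 one_pos).comp (wh0ToMer N)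

lemma qExpWH0_apply (h : ↥(WH0 (Gamma0 N))) : qExpWH0 N h = laurentExp 1 (h : ℍ → ℂ) := rfl

lemma qExpWH0_injective : Function.Injective (qExpWH0 N) :=
  (laurentExpHom_injective 1 one_pos).comp (wh0ToMer_injective N)

/-- The `q`-expansion at `i∞` on the function field `Frac (WH0 Γ₀(N))`. -/
def qExpFF : WH0.FunField (Gamma0 N) →+* LaurentSeries ℂ :=
  IsFractionRing.lift (qExpWH0_injective N)

lemma qExpFF_algebraMap (h : ↥(WH0 (Gamma0 N))) :
    qExpFF N (algebraMap _ (WH0.FunField (Gamma0 N)) h) = laurentExp 1 (h : ℍ → ℂ) :=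
  IsFractionRing.lift_algebraMap _ h

lemma qExpFF_injective : Function.Injective (qExpFF N) := (qExpFF N).injective

/-- The function `z ↦ jInv (d z)` as an element of `WH0 Γ₀(N)`, for `d ∣ N`. -/
def jdWH0 (d : ℕ) [NeZero d] (hd : d ∣ N) : ↥(WH0 (Gamma0 N)) :=
  ⟨jScaledFun d, by
    have h1 : IsWH0 (Gamma0 d) (jN d : ℍ → ℂ) := isWH0_jN d
    have h2 : (jN d : ℍ → ℂ) = jScaledFun d := by
      funext z
      rw [jN_apply, jScaledFun, Function.comp_apply]
      congr 1
      apply UpperHalfPlane.ext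
      rw [coe_levelMat_smul, coe_scaleH]
    rw [h2] at h1
    have hle : Gamma0 N ≤ Gamma0 d := by
      intro γ hγ
      rw [Gamma0_mem] at hγ ⊢
      have h3 := (ZMod.intCast_zmod_eq_zero_iff_dvd (γ 1 0) N).mp hγ
      exact (ZMod.intCast_zmod_eq_zero_iff_dvd (γ 1 0) d).mpr
        (dvd_trans (Int.natCast_dvd_natCast.mpr hd) h3)
    exact WH0_mono hle h1⟩

lemma coe_jdWH0 (d : ℕ) [NeZero d] (hd : d ∣ N) : ((jdWH0 N d hd : ↥(WH0 (Gamma0 N))) : ℍ → ℂ) =
    jScaledFun d := rfl

lemma qExpFF_jdWH0 (d : ℕ) [NeZero d] (hd : d ∣ N) :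
    qExpFF N (algebraMap _ (WH0.FunField (Gamma0 N)) (jdWH0 N d hd)) =
      qExpand ℂ d (jqModC ℂ) := by
  rw [qExpFF_algebraMap, coe_jdWH0, laurentExp_jScaledFun]

lemma qExpFF_const (c : ℂ) :
    qExpFF N (algebraMap _ (WH0.FunField (Gamma0 N)) (algebraMap ℂ (WH0 (Gamma0 N)) c)) =
      HahnSeries.C c := by
  rw [qExpFF_algebraMap]
  exact laurentExp_const one_pos c

section Embedding

variable {L : Type*} [Field L] [Algebra ℚ L] (e : L →+* ℂ)

/-- The rational function field of level `N` lands in the image of `qExpFF`. -/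
lemma coeffMap_rat_mem_fieldRange_qExpFF {y : LaurentSeries ℚ}
    (hy : y ∈ modularFunctionFieldFull N) :
    coeffMap (algebraMap ℚ ℂ) y ∈ (qExpFF N).fieldRange := by
  let T : Subfield (LaurentSeries ℚ) := (qExpFF N).fieldRange.comap (coeffMap (algebraMap ℚ ℂ))
  suffices h : (modularFunctionFieldFull N).toSubfield ≤ T from h hy
  rw [modularFunctionFieldFull, IntermediateField.adjoin, Subfield.closure_le]
  rintro x (⟨a, rfl⟩ | ⟨d, hd, hdN, rfl⟩)
  · show coeffMap (algebraMap ℚ ℂ) (algebraMap ℚ (LaurentSeries ℚ) a) ∈ (qExpFF N).fieldRange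
    rw [RingHom.mem_fieldRange]
    refine ⟨algebraMap _ _ (algebraMap ℂ (WH0 (Gamma0 N)) (algebraMap ℚ ℂ a)), ?_⟩
    rw [qExpFF_const, algebraMap_laurentSeries_eq_single, coeffMap_single]
    rfl
  · haveI := hd
    show coeffMap (algebraMap ℚ ℂ) (qExpand ℚ d jq) ∈ (qExpFF N).fieldRange
    rw [RingHom.mem_fieldRange]
    refine ⟨algebraMap _ _ (jdWH0 N d hdN), ?_⟩
    rw [qExpFF_jdWH0, coeffMap_rat_qExpand_jq]

/-- The base-changed function field lands in the image of `qExpFF`. -/
lemma coeffMap_mem_fieldRange_qExpFF {x : LaurentSeries L}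
    (hx : x ∈ laurentBaseChange L (modularFunctionFieldFull N)) :
    coeffMap e x ∈ (qExpFF N).fieldRange := by
  let T : Subfield (LaurentSeries L) := (qExpFF N).fieldRange.comap (coeffMap e)
  suffices h : (laurentBaseChange L (modularFunctionFieldFull N)).toSubfield ≤ T from h hx
  rw [laurentBaseChange, IntermediateField.adjoin, Subfield.closure_le]
  rintro x (⟨a, rfl⟩ | ⟨y, hy, rfl⟩)
  · show coeffMap e (algebraMap L (LaurentSeries L) a) ∈ (qExpFF N).fieldRange
    rw [RingHom.mem_fieldRange]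
    refine ⟨algebraMap _ _ (algebraMap ℂ (WH0 (Gamma0 N)) (e a)), ?_⟩
    rw [qExpFF_const, coeffMap_algebraMap']
  · show coeffMap e (coeffEmb L y) ∈ (qExpFF N).fieldRange
    rw [coeffMap_coeffEmb]
    exact coeffMap_rat_mem_fieldRange_qExpFF N hy

/-- `qExpFF` as an isomorphism onto its range. -/
def qExpFFEquiv : WH0.FunField (Gamma0 N) ≃+* (qExpFF N).fieldRange :=
  RingEquiv.ofBijective (qExpFF N).rangeRestrictField
    ⟨fun a b h => qExpFF_injective N (congrArg Subtype.val h),
     fun ⟨y, hy⟩ => by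
      obtain ⟨x, rfl⟩ := RingHom.mem_fieldRange.mp hy
      exact ⟨x, rfl⟩⟩

lemma coe_qExpFFEquiv (x : WH0.FunField (Gamma0 N)) :
    ((qExpFFEquiv N x : (qExpFF N).fieldRange) : LaurentSeries ℂ) = qExpFF N x := rfl

/-- **The embedding of the formal function field over `L` into `Frac (WH0 Γ₀(N))`.** -/
def toFunField : ↥(laurentBaseChange L (modularFunctionFieldFull N)) →+*
    WH0.FunField (Gamma0 N) :=
  ((qExpFFEquiv N).symm : (qExpFF N).fieldRange →+* WH0.FunField (Gamma0 N)).comp
    (((coeffMap e).comp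
      (laurentBaseChange L (modularFunctionFieldFull N)).val.toRingHom).codRestrict
      (qExpFF N).fieldRange (fun x => coeffMap_mem_fieldRange_qExpFF N e x.2))

/-- Characterisation: the `q`-expansion of `toFunField e N x` is `x` with coefficients mapped by
`e`. -/
theorem qExpFF_toFunField (x : ↥(laurentBaseChange L (modularFunctionFieldFull N))) :
    qExpFF N (toFunField N e x) = coeffMap e (x : LaurentSeries L) := by
  have h := coe_qExpFFEquiv N (toFunField N e x)
  rw [← h]
  simp only [toFunField, RingHom.coe_comp, Function.comp_apply, RingHom.coe_coe,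
    RingEquiv.apply_symm_apply]
  rfl

theorem toFunField_eq_iff (x : ↥(laurentBaseChange L (modularFunctionFieldFull N)))
    (y : WH0.FunField (Gamma0 N)) :
    toFunField N e x = y ↔ coeffMap e (x : LaurentSeries L) = qExpFF N y := by
  rw [← qExpFF_toFunField]
  exact ⟨fun h => by rw [h], fun h => qExpFF_injective N h⟩

theorem toFunField_injective : Function.Injective (toFunField N e) := (toFunField N e).injective

theorem toFunField_algebraMap (a : L) :
    toFunField N e (algebraMap L _ a) =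
      algebraMap _ (WH0.FunField (Gamma0 N)) (algebraMap ℂ (WH0 (Gamma0 N)) (e a)) := by
  rw [toFunField_eq_iff, qExpFF_const]
  exact coeffMap_algebraMap' e a

theorem toFunField_jdBar (d : ℕ) [NeZero d] (hd : d ∣ N) :
    toFunField N e (jdBar N d hd) = algebraMap _ (WH0.FunField (Gamma0 N)) (jdWH0 N d hd) := by
  rw [toFunField_eq_iff, qExpFF_jdWH0]
  show coeffMap e (coeffEmb L (qExpand ℚ d jq)) = qExpand ℂ d (jqModC ℂ)
  rw [coeffMap_coeffEmb, coeffMap_rat_qExpand_jq]

end Embedding

end Fermat.Agent.ProgramR.BarField
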