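/-
Program R / S24 (helper9), degree package, part 2 (lower bound): a nonzero polynomial
`P ∈ L[X][T]` with `P(j, j_N) = 0` in `L((q))` has `T`-degree at least `ψ(N) = [SL₂(ℤ) : Γ₀(N)]`,
because its image over `Hol` vanishes at the `ψ(N)` distinct conjugates of `j_N`.
-/
import Fermat.Agent.ProgramR.BarField.ToFunField
import Fermat.Agent.ProgramR.Analytic.Gamma0Chart

set_option autoImplicit false

noncomputable section

open Complex Filter Function Topology Polynomial
open UpperHalfPlane hiding I
open CongruenceSubgroup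
open scoped Real Manifold MatrixGroups

namespace Fermat.Agent.ProgramR.BarField

open ModularCurve Fermat.Agent.ProgramR.QExp Fermat.Agent.ProgramR.LevelOne
  Fermat.Agent.ProgramR.CuspLocal

attribute [local instance] Genus.cosetFintype

variable (N : ℕ) [NeZero N] {L : Type*} [Field L] [Algebra ℚ L] (e : L →+* ℂ)

/-- constants as a ring hom into `merRing 1`. -/
def constMerHom : ℂ →+* ↥(merRing 1 one_pos) where
  toFun := constMer
  map_one' := rfl
  map_mul' _ _ := rfl
  map_zero' := rfl
  map_add' _ _ := rfl

/-- `j` as an element of `merRing 1`. -/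
def jMer : ↥(merRing 1 one_pos) := ⟨jInv, 1, isMeroAtInfty_jInv⟩

/-- the coefficient ring hom `L[X] → merRing 1`, `X ↦ j`. -/
def polyMer : L[X] →+* ↥(merRing 1 one_pos) :=
  Polynomial.eval₂RingHom (constMerHom.comp e) jMer

/-- the coefficient ring hom `L[X] → Hol`, `X ↦ j`. -/
def polyHol : L[X] →+* Hol :=
  Polynomial.eval₂RingHom ((algebraMap ℂ Hol).comp e) jHol

/-- the coefficient ring hom `L[X] → L((q))`, `X ↦ j(q)`. -/
def polyLaurent (L : Type*) [Field L] [Algebra ℚ L] : L[X] →+* LaurentSeries L :=
  (Polynomial.aeval (coeffEmb L jq)).toRingHom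

lemma polyHol_injective : Function.Injective (polyHol e) := by
  rw [injective_iff_map_eq_zero]
  intro p hp
  have h1 : ∀ z : ℍ, (p.map e).eval (jInv z) = 0 := by
    intro z
    have h := congrArg (Hol.evalAt z) hp
    rw [map_zero, polyHol, Polynomial.coe_eval₂RingHom, Polynomial.hom_eval₂] at h
    rw [Polynomial.eval_map]
    exact h
  have h2 : p.map e = 0 := by
    apply Polynomial.funext
    intro c
    obtain ⟨z, rfl⟩ := jInv_surjective c
    rw [h1 z, Polynomial.eval_zero]
  exact (Polynomial.map_eq_zero_iff e.injective).mp h2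

lemma slComp_polyHol (γ : SL(2, ℤ)) (p : L[X]) : Hol.slComp γ (polyHol e p) = polyHol e p := by
  rw [polyHol, Polynomial.coe_eval₂RingHom, Polynomial.hom_eval₂, slComp_jHol]
  rfl

/-- Two-variable evaluation into `Hol`: `X ↦ j`, `T ↦ j_N`. -/
def evalHol : L[X][X] →+* Hol := Polynomial.eval₂RingHom (polyHol e) (jN N)

/-- Two-variable evaluation into `merRing 1`. -/
def evalMer : L[X][X] →+* ↥(merRing 1 one_pos) :=
  Polynomial.eval₂RingHom (polyMer e) (jScaled N)

/-- Two-variable evaluation into `L((q))`: `X ↦ j(q)`, `T ↦ j(q^N)`. -/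
def evalLaurent (L : Type*) [Field L] [Algebra ℚ L] : L[X][X] →+* LaurentSeries L :=
  Polynomial.eval₂RingHom (polyLaurent L) (coeffEmb L (qExpand ℚ N jq))

lemma jN_eq_jScaledFun : (jN N : ℍ → ℂ) = jScaledFun N := by
  funext z
  rw [jN_apply, jScaledFun, Function.comp_apply]
  congr 1
  apply UpperHalfPlane.ext
  rw [coe_levelMat_smul, coe_scaleH]

lemma coe_evalHol (P : L[X][X]) :
    ((evalHol N e P : Hol) : ℍ → ℂ) = ((evalMer N e P : ↥(merRing 1 one_pos)) : ℍ → ℂ) := by
  have h : (holRing.subtype.comp (evalHol N e) : L[X][X] →+* (ℍ → ℂ)) =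
      ((merRing 1 one_pos).subtype.comp (evalMer N e)) := by
    refine Polynomial.ringHom_ext (fun p ↦ ?_) ?_
    · have h2 : (holRing.subtype.comp ((evalHol N e).comp Polynomial.C) : L[X] →+* (ℍ → ℂ)) =
          ((merRing 1 one_pos).subtype.comp ((evalMer N e).comp Polynomial.C)) := by
        refine Polynomial.ringHom_ext (fun a ↦ ?_) ?_
        · simp only [RingHom.coe_comp, Function.comp_apply, evalHol, evalMer,
            Polynomial.coe_eval₂RingHom, Polynomial.eval₂_C, polyHol, polyMer]
          rfl
        · simp only [RingHom.coe_comp, Function.comp_apply, evalHol, evalMer,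
            Polynomial.coe_eval₂RingHom, Polynomial.eval₂_C, Polynomial.eval₂_X, polyHol, polyMer]
          rfl
      exact RingHom.congr_fun h2 p
    · simp only [RingHom.coe_comp, Function.comp_apply, evalHol, evalMer,
        Polynomial.coe_eval₂RingHom, Polynomial.eval₂_X]
      exact jN_eq_jScaledFun N
  exact RingHom.congr_fun h P

lemma laurentExp_evalMer (P : L[X][X]) :
    laurentExpHom 1 one_pos (evalMer N e P) = coeffMap e (evalLaurent N L P) := by
  have h : ((laurentExpHom 1 one_pos).comp (evalMer N e) : L[X][X] →+* LaurentSeries ℂ) =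
      (coeffMap e).comp (evalLaurent N L) := by
    refine Polynomial.ringHom_ext (fun p ↦ ?_) ?_
    · have h2 : (((laurentExpHom 1 one_pos).comp ((evalMer N e).comp Polynomial.C)) :
          L[X] →+* LaurentSeries ℂ) = (coeffMap e).comp ((evalLaurent N L).comp Polynomial.C) := by
        refine Polynomial.ringHom_ext (fun a ↦ ?_) ?_
        · simp only [RingHom.coe_comp, Function.comp_apply, evalLaurent, evalMer,
            Polynomial.coe_eval₂RingHom, Polynomial.eval₂_C, polyLaurent, polyMer,
            AlgHom.toRingHom_eq_coe, RingHom.coe_coe, Polynomial.aeval_C, laurentExpHom_apply]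
          rw [coeffMap_algebraMap']
          exact laurentExp_constMer (e a)
        · simp only [RingHom.coe_comp, Function.comp_apply, evalLaurent, evalMer,
            Polynomial.coe_eval₂RingHom, Polynomial.eval₂_C, Polynomial.eval₂_X, polyLaurent,
            polyMer, AlgHom.toRingHom_eq_coe, RingHom.coe_coe, Polynomial.aeval_X,
            laurentExpHom_apply]
          rw [coeffMap_coeffEmb, coeffMap_rat_jq]
          exact laurentExp_jInv
      exact RingHom.congr_fun h2 p
    · simp only [RingHom.coe_comp, Function.comp_apply, evalLaurent, evalMer,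
        Polynomial.coe_eval₂RingHom, Polynomial.eval₂_X, laurentExpHom_apply]
      rw [coeffMap_coeffEmb, coeffMap_rat_qExpand_jq]
      exact laurentExp_jScaledFun N
  exact RingHom.congr_fun h P

/-- A formal relation `P(j(q), j(q^N)) = 0` gives the analytic relation `P(j, j_N) = 0`. -/
lemma evalHol_eq_zero {P : L[X][X]} (hP : evalLaurent N L P = 0) : evalHol N e P = 0 := by
  have h1 : evalMer N e P = 0 := by
    apply laurentExpHom_injective 1 one_pos
    rw [laurentExp_evalMer, hP, map_zero, map_zero]
  apply Subtype.ext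
  rw [coe_evalHol, h1]
  rfl

include e in
/-- **Lower bound.** -/
theorem dedekindPsi_le_natDegree {P : L[X][X]} (hP0 : P ≠ 0) (hP : evalLaurent N L P = 0) :
    dedekindPsi N ≤ P.natDegree := by
  classical
  set Q : Hol[X] := P.map (polyHol e) with hQ
  have hQ0 : Q ≠ 0 := (Polynomial.map_ne_zero_iff (polyHol_injective e)).mpr hP0
  have hroot : ∀ g : SL(2, ℤ), Q.IsRoot (Hol.slComp g⁻¹ (jN N)) := by
    intro g
    have h0 := evalHol_eq_zero N e hP
    have h1 := congrArg (Hol.slComp g⁻¹) h0
    rw [map_zero, evalHol, Polynomial.coe_eval₂RingHom, Polynomial.hom_eval₂] at h1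
    have h2 : (Hol.slComp g⁻¹).comp (polyHol e) = polyHol e :=
      RingHom.ext fun p ↦ slComp_polyHol e g⁻¹ p
    rw [h2] at h1
    rw [Polynomial.IsRoot.def, hQ, Polynomial.eval_map]
    exact h1
  let r : SL(2, ℤ) ⧸ Gamma0 N → Hol := fun x ↦ Hol.slComp (Quotient.out x)⁻¹ (jN N)
  have hinj : Function.Injective r := by
    intro x y hxy
    have h := (slComp_inv_jN_eq_iff N (Quotient.out x) (Quotient.out y)).mp hxy
    have h2 : (QuotientGroup.mk (Quotient.out x) : SL(2, ℤ) ⧸ Gamma0 N) =
        QuotientGroup.mk (Quotient.out y) := QuotientGroup.eq.mpr h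
    simpa using h2
  have hsub : (Finset.univ.image r).val ⊆ Q.roots := by
    intro f hf
    rw [Finset.mem_val, Finset.mem_image] at hf
    obtain ⟨x, -, rfl⟩ := hf
    exact (Polynomial.mem_roots hQ0).2 (hroot _)
  have h3 := Polynomial.card_le_degree_of_subset_roots hsub
  rw [Finset.card_image_of_injective _ hinj, Finset.card_univ, Genus.card_coset N] at h3
  exact h3.trans (Polynomial.natDegree_map_le)

end Fermat.Agent.ProgramR.BarField
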