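/-
Program R / S24 (helper9): linear disjointness of `LaurentSeries K` and `L` over `K`:
a `K`-linearly independent family of Laurent series stays `L`-linearly independent after applying
a field embedding `e : K →+* L` to all coefficients.
-/
import Mathlib
import Fermat.Prelude.Def_ModularCurve_LaurentCoeff

set_option autoImplicit false

noncomputable section

namespace Fermat.Agent.ProgramR.BarField

open ModularCurve

/-- Abstract form: `φ : M → M'` semilinear over a field embedding `e : K →+* L`, with coordinate
functionals `π i` on `M` (jointly injective) and `π' i` on `M'` compatible with `φ`.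
Then `φ` preserves linear independence. -/
theorem linearIndependent_of_coordinates {K L M M' I ι : Type*} [Field K] [Field L]
    [AddCommGroup M] [Module K M] [AddCommGroup M'] [Module L M'] (e : K →+* L)
    (φ : M → M') (π : I → M →ₗ[K] K) (π' : I → M' →ₗ[L] L)
    (hπ : ∀ m : M, (∀ i, π i m = 0) → m = 0) (hφ : ∀ i m, π' i (φ m) = e (π i m))
    (v : ι → M) (hv : LinearIndependent K v) : LinearIndependent L (fun k ↦ φ (v k)) := by
  classical
  let _ : Algebra K L := e.toAlgebra
  let b := Module.Free.chooseBasis K L
  rw [linearIndependent_iff']
  intro s c hc k hk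
  -- coordinates of the relation
  have h1 : ∀ i, ∑ k ∈ s, c k * e (π i (v k)) = 0 := by
    intro i
    have := congrArg (π' i) hc
    simpa [map_sum, hφ] using this
  -- expand in the basis
  have h2 : ∀ m i, ∑ k ∈ s, (b.repr (c k) m) * π i (v k) = 0 := by
    intro m i
    have h := congrArg (fun x ↦ b.repr x m) (h1 i)
    simp only [map_sum, map_zero, Finsupp.coe_zero, Pi.zero_apply, Finsupp.coe_finsetSum,
      Finset.sum_apply] at h
    rw [← h]
    refine Finset.sum_congr rfl fun k _ ↦ ?_
    have : c k * e (π i (v k)) = (π i (v k)) • c k := by
      rw [Algebra.smul_def, mul_comm]; rfl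
    rw [this, map_smul, Finsupp.smul_apply, smul_eq_mul, mul_comm]
  have h3 : ∀ m, ∑ k ∈ s, (b.repr (c k) m) • v k = 0 := by
    intro m
    refine hπ _ fun i ↦ ?_
    rw [map_sum]
    simpa [map_smul] using h2 m i
  have h4 : ∀ m, b.repr (c k) m = 0 := fun m ↦
    (linearIndependent_iff'.mp hv) s (fun k ↦ b.repr (c k) m) (h3 m) k hk
  have : b.repr (c k) = 0 := Finsupp.ext h4
  exact (b.repr.map_eq_zero_iff).mp this

/-- the `k`-th coefficient as a linear functional on Laurent series. -/
def coeffLin (K : Type*) [Field K] (k : ℤ) : LaurentSeries K →ₗ[K] K where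
  toFun x := x.coeff k
  map_add' _ _ := rfl
  map_smul' _ _ := rfl

/-- **Linear disjointness**: applying a field embedding to the coefficients preserves linear
independence of Laurent series. -/
theorem linearIndependent_coeffMap_of_coordinates {K L ι : Type*} [Field K] [Field L] (e : K →+* L)
    (v : ι → LaurentSeries K) (hv : LinearIndependent K v) :
    LinearIndependent L (fun k ↦ coeffMap e (v k)) :=
  linearIndependent_of_coordinates e (coeffMap e) (coeffLin K) (coeffLin L)
    (fun _ hm ↦ HahnSeries.ext (funext hm)) (fun _ _ ↦ rfl) v hv

/-- The `Algebra`-induced scalar multiplication on Laurent series is the coefficientwise one. -/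
lemma algSmul_eq {K : Type*} [Field K] (c : K) (x : LaurentSeries K) :
    @HSMul.hSMul K (LaurentSeries K) (LaurentSeries K)
      (@instHSMul K (LaurentSeries K) Algebra.toSMul) c x = c • x := by
  have h1 := @Algebra.smul_def K (LaurentSeries K) _ _ _ c x
  rw [h1, HahnSeries.algebraMap_apply', ← HahnSeries.C_mul_eq_smul]
  congr 1
  simp

/-- The two module structures on Laurent series agree (they are not definitionally equal). -/
lemma laurent_module_eq {K : Type*} [Field K] :
    (Algebra.toModule : Module K (LaurentSeries K)) = HahnSeries.instModule :=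
  Module.ext' _ _ (fun c x ↦ algSmul_eq c x)

/-- `linearIndependent_coeffMap_of_coordinates` for the module structures induced by the algebra
structures. -/
theorem linearIndependent_coeffMap_alg {K L ι : Type*} [Field K] [Field L] (e : K →+* L)
    (v : ι → LaurentSeries K)
    (hv : @LinearIndependent ι K (LaurentSeries K) v _ _ Algebra.toModule) :
    @LinearIndependent ι L (LaurentSeries L) (fun k ↦ coeffMap e (v k)) _ _ Algebra.toModule := by
  rw [laurent_module_eq] at hv ⊢
  exact linearIndependent_coeffMap_of_coordinates e v hv

end Fermat.Agent.ProgramR.BarField
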