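/-
Program R / S24 (helper9), degree package, part 3 (upper bound): elements of the formal function
field over `L` which are linearly independent over `L[j]` are at most `ψ(N)` many, because their
images in `ℂ((q))` are expansions of elements of `Frac(B_N)`, linearly independent over `ℂ[j]`
(linear disjointness), and `B_N` has rank `ψ(N)` over `ℂ[j]`.
-/
import Fermat.Agent.ProgramR.BarField.DegreeLower
import Fermat.Agent.ProgramR.BarField.LinDisjoint

set_option autoImplicit false

noncomputable section

open Complex Filter Function Topology Polynomial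
open UpperHalfPlane hiding I
open CongruenceSubgroup
open scoped Real Manifold MatrixGroups

namespace Fermat.Agent.ProgramR.BarField

open ModularCurve Fermat.Agent.ProgramR.QExp Fermat.Agent.ProgramR.LevelOne
  Fermat.Agent.ProgramR.CuspLocal

attribute [local instance] Genus.cosetFintype

section PolyComb

variable {R A ι : Type*} [CommRing R] [CommRing A] [Algebra R A] [Fintype ι] (j : A) (x : ι → A)

/-- The family `j^k x_i`, `k < D`. -/
def powFamily (D : ℕ) : ι × Fin D → A := fun ik ↦ j ^ (ik.2 : ℕ) * x ik.1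

lemma linearIndependent_powFamily_of_poly
    (h : ∀ p : ι → R[X], ∑ i, aeval j (p i) * x i = 0 → ∀ i, p i = 0) (D : ℕ) :
    LinearIndependent R (powFamily j x D) := by
  classical
  rw [Fintype.linearIndependent_iff]
  intro c hc ik
  let p : ι → R[X] := fun i ↦ ∑ k : Fin D, Polynomial.monomial (k : ℕ) (c (i, k))
  have hp : ∑ i, aeval j (p i) * x i = 0 := by
    rw [← hc, Fintype.sum_prod_type]
    refine Finset.sum_congr rfl fun i _ ↦ ?_
    simp only [p, map_sum, Polynomial.aeval_monomial, Finset.sum_mul, powFamily]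
    refine Finset.sum_congr rfl fun k _ ↦ ?_
    rw [Algebra.smul_def, mul_assoc]
  have h0 := h p hp ik.1
  have hcoeff : (p ik.1).coeff (ik.2 : ℕ) = c ik := by
    simp only [p, Polynomial.finsetSum_coeff, Polynomial.coeff_monomial]
    rw [Finset.sum_eq_single ik.2]
    · simp
    · intro k _ hk
      rw [if_neg]
      exact fun h ↦ hk (Fin.ext h)
    · intro h
      exact absurd (Finset.mem_univ _) h
  rw [← hcoeff, h0, Polynomial.coeff_zero]

lemma poly_of_linearIndependent_powFamily
    (h : ∀ D, LinearIndependent R (powFamily j x D)) (p : ι → R[X])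
    (hp : ∑ i, aeval j (p i) * x i = 0) : ∀ i, p i = 0 := by
  classical
  set D := (Finset.univ.sup fun i ↦ (p i).natDegree) + 1 with hD
  have hdeg : ∀ i, (p i).natDegree < D := fun i ↦
    Nat.lt_succ_of_le (Finset.le_sup (f := fun i ↦ (p i).natDegree) (Finset.mem_univ i))
  have hsum : ∑ ik : ι × Fin D, (p ik.1).coeff (ik.2 : ℕ) • powFamily j x D ik = 0 := by
    rw [← hp, Fintype.sum_prod_type]
    refine Finset.sum_congr rfl fun i _ ↦ ?_
    conv_rhs => rw [(p i).as_sum_range' D (hdeg i)]
    rw [map_sum, Finset.sum_mul, ← Fin.sum_univ_eq_sum_range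
      (fun k ↦ aeval j (Polynomial.monomial k ((p i).coeff k)) * x i) D]
    refine Finset.sum_congr rfl fun k _ ↦ ?_
    simp only [powFamily, Polynomial.aeval_monomial]
    rw [Algebra.smul_def, mul_assoc]
  have hlin := Fintype.linearIndependent_iff.mp (h D) (fun ik ↦ (p ik.1).coeff (ik.2 : ℕ)) hsum
  intro i
  ext k
  rw [Polynomial.coeff_zero]
  by_cases hk : k < D
  · exact hlin (i, ⟨k, hk⟩)
  · exact Polynomial.coeff_eq_zero_of_natDegree_lt (lt_of_lt_of_le (hdeg i) (not_lt.mp hk))

end PolyComb

variable (N : ℕ) [NeZero N] {L : Type*} [Field L] [Algebra ℚ L] (e : L →+* ℂ)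

/-- Linear independence over `L[j]` is preserved by mapping the coefficients to `ℂ`. -/
theorem poly_independent_coeffMap {n : ℕ} (jL : LaurentSeries L) (x : Fin n → LaurentSeries L)
    (hind : ∀ p : Fin n → L[X], ∑ i, aeval jL (p i) * x i = 0 → ∀ i, p i = 0) :
    ∀ g : Fin n → ℂ[X], ∑ i, aeval (coeffMap e jL) (g i) * coeffMap e (x i) = 0 →
      ∀ i, g i = 0 := by
  apply poly_of_linearIndependent_powFamily
  intro D
  have h1 := linearIndependent_powFamily_of_poly jL x hind D
  have h2 := linearIndependent_coeffMap_alg e (powFamily jL x D) h1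
  have h3 : (fun k ↦ coeffMap e (powFamily jL x D k)) =
      powFamily (coeffMap e jL) (fun i ↦ coeffMap e (x i)) D := by
    funext ik
    simp [powFamily, map_mul, map_pow]
  rw [h3] at h2
  exact h2

lemma qExpWH0_algebraMap (c : ℂ) :
    qExpWH0 N (algebraMap ℂ ↥(WH0 (Gamma0 N)) c) = HahnSeries.C c := by
  rw [qExpWH0_apply]
  exact laurentExp_const one_pos c

lemma qExpWH0_j : qExpWH0 N (WH0.j (Gamma0 N)) = jqModC ℂ := by
  rw [qExpWH0_apply]
  exact laurentExp_jInv

/-- The `q`-expansion of a polynomial in `j`. -/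
lemma qExpWH0_algebraMap_poly (p : ℂ[X]) :
    qExpWH0 N (algebraMap ℂ[X] ↥(WH0 (Gamma0 N)) p) = Polynomial.aeval (jqModC ℂ) p := by
  rw [WH0.algebraMap_poly]
  induction p using Polynomial.induction_on' with
  | add p q hp hq => rw [map_add, map_add, map_add, hp, hq]
  | monomial n a =>
    rw [← Polynomial.C_mul_X_pow_eq_monomial]
    simp only [map_mul, map_pow, Polynomial.aeval_X, Polynomial.aeval_C, qExpWH0_j,
      qExpWH0_algebraMap]
    congr 1
    rw [algebraMap_laurentSeries_eq_single]
    rfl

include e in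
/-- **Upper bound.** -/
theorem card_le_dedekindPsi {n : ℕ} (x : Fin n → LaurentSeries L)
    (hx : ∀ i, x i ∈ laurentBaseChange L (modularFunctionFieldFull N))
    (hind : ∀ p : Fin n → L[X], ∑ i, aeval (coeffEmb L jq) (p i) * x i = 0 → ∀ i, p i = 0) :
    n ≤ dedekindPsi N := by
  classical
  have hy : ∀ i, ∃ η : WH0.FunField (Gamma0 N), qExpFF N η = coeffMap e (x i) := fun i ↦
    RingHom.mem_fieldRange.mp (coeffMap_mem_fieldRange_qExpFF N e (hx i))
  choose η hη using hy
  obtain ⟨s, hs⟩ := IsLocalization.exist_integer_multiples_of_finite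
    (nonZeroDivisors ↥(WH0 (Gamma0 N))) η
  choose b hb using hs
  have hs0 : qExpWH0 N (s : ↥(WH0 (Gamma0 N))) ≠ 0 := by
    intro h
    have := qExpWH0_injective N (h.trans (map_zero _).symm)
    exact nonZeroDivisors.coe_ne_zero s this
  have hexp : ∀ i, qExpWH0 N (b i) = qExpWH0 N (s : ↥(WH0 (Gamma0 N))) * coeffMap e (x i) := by
    intro i
    have h1 := congrArg (qExpFF N) (hb i)
    rw [qExpFF_algebraMap, Algebra.smul_def, map_mul, qExpFF_algebraMap, hη] at h1
    exact h1
  have hlin : LinearIndependent ℂ[X] b := by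
    rw [Fintype.linearIndependent_iff]
    intro g hg
    have h1 := congrArg (qExpWH0 N) hg
    rw [map_sum, map_zero] at h1
    have h2 : ∀ i, qExpWH0 N (g i • b i) = qExpWH0 N (s : ↥(WH0 (Gamma0 N))) *
        (aeval (coeffMap e (coeffEmb L jq)) (g i) * coeffMap e (x i)) := by
      intro i
      rw [Algebra.smul_def, map_mul, qExpWH0_algebraMap_poly, hexp, coeffMap_coeffEmb,
        coeffMap_rat_jq]
      ring
    simp only [h2, ← Finset.mul_sum] at h1
    have h3 := (mul_eq_zero.mp h1).resolve_left hs0
    exact poly_independent_coeffMap e _ x hind g h3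
  have h4 := hlin.fintype_card_le_finrank
  rwa [Fintype.card_fin, WH0.finrank_Gamma0] at h4

end Fermat.Agent.ProgramR.BarField
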