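/-
Program R, package [BC], part 3: the algebraic model of `X₀(N)` over an algebraically closed
field `L` of characteristic zero with an embedding `e : L →+* ℂ` (in the application `L = ℚ̄`).

`FBar L N = ↥(laurentBaseChange L (modularFunctionFieldFull N))` (for `L = AlgebraicClosure ℚ` this
is the prelude's `↥(modularFunctionFieldBar N)`), `jBar L N ∈ FBar L N` (the element `j(q)`), the
`L[X]`-algebra structure `X ↦ jBar`, the `RatFunc L`-algebra structure, the finite chart
`SBar L N = integralClosure L[X] (FBar L N)`, the chart at infinity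
`RInf L N = integralClosure (Ainf L) (FBar L N)`, and the comparison maps to the analytic objects
over `ℂ`: `ΦBar N e : FBar L N →+* WH0.FunField (Gamma0 N)`,
`ΨBar N e : SBar L N →+* WH0 (Gamma0 N)`.
-/
import Mathlib
import Fermat.Prelude.Thm_ModularCurve_coeff_jqModC_pow_of_lt
import Fermat.Prelude.Thm_ModularCurve_coeff_jqModC_pow_self
import Fermat.Agent.ProgramR.BarField.ToFunField
import Fermat.Agent.ProgramR.Alg.Setup
import Fermat.Agent.ProgramR.Analytic.Division
import Fermat.Agent.ProgramR.Counting.GenusNat

set_option autoImplicit false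
set_option linter.unusedSectionVars false

noncomputable section

open Complex Filter Function Topology CongruenceSubgroup Polynomial
open UpperHalfPlane hiding I
open scoped Real Manifold MatrixGroups

namespace Fermat.Agent.ProgramR.BarField

open ModularCurve Fermat.Agent.ProgramR.QExp Fermat.Agent.ProgramR.LevelOne
  Fermat.Agent.ProgramR.RR

section Formal

variable (L : Type*) [Field L]

/-- `j(q)` is transcendental over the constants: formal version. -/
theorem aeval_jqModC_ne_zero {p : L[X]} (hp : p ≠ 0) : aeval (jqModC L) p ≠ 0 := by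
  intro h
  have hc : (aeval (jqModC L) p).coeff (-(p.natDegree : ℤ)) = p.leadingCoeff := by
    rw [aeval_def, eval₂_eq_sum_range]
    have : ∀ (s : Finset ℕ) (f : ℕ → LaurentSeries L) (k : ℤ),
        (∑ i ∈ s, f i).coeff k = ∑ i ∈ s, (f i).coeff k := by
      intro s f k
      exact map_sum (HahnSeries.coeff.addMonoidHom k) f s
    rw [this, Finset.sum_eq_single p.natDegree]
    · rw [algebraMap_laurentSeries_eq_single, HahnSeries.coeff_single_zero_mul,
        coeff_jqModC_pow_self, mul_one]
      rfl
    · intro i hi hne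
      rw [Finset.mem_range] at hi
      have hlt : i < p.natDegree := lt_of_le_of_ne (Nat.lt_succ_iff.mp hi) hne
      rw [algebraMap_laurentSeries_eq_single, HahnSeries.coeff_single_zero_mul,
        coeff_jqModC_pow_of_lt L
          (by exact_mod_cast (by omega : -(p.natDegree : ℤ) < -(i : ℤ))), mul_zero]
    · intro h; exact absurd (Finset.mem_range.mpr (Nat.lt_succ_self _)) h
  rw [h, HahnSeries.coeff_zero] at hc
  exact (leadingCoeff_ne_zero.mpr hp) hc.symm

end Formal

variable (L : Type*) [Field L] [Algebra ℚ L] (N : ℕ) [NeZero N]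

/-- The function field of `X₀(N)` over `L` (the prelude's formal model). -/
abbrev FBar : Type _ := ↥(laurentBaseChange L (modularFunctionFieldFull N))

/-- The element `j(q)` of `FBar L N`. -/
def jBar : FBar L N := jdBar (L := L) N 1 (one_dvd N)

lemma coe_jBar : ((jBar L N : FBar L N) : LaurentSeries L) = jqModC L := by
  show coeffEmb L (qExpand ℚ 1 jq) = jqModC L
  rw [qExpand_one_apply, ← jqModC_rat]
  exact map_jqModC (algebraMap ℚ L)

/-- The `L[X]`-algebra structure on `FBar L N`, `X ↦ jBar`. -/
instance polyAlgebraFBar : Algebra L[X] (FBar L N) :=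
  (Polynomial.aeval (jBar L N)).toRingHom.toAlgebra

lemma algebraMap_poly_FBar (p : L[X]) :
    algebraMap L[X] (FBar L N) p = Polynomial.aeval (jBar L N) p := rfl

instance : IsScalarTower L L[X] (FBar L N) :=
  IsScalarTower.of_algebraMap_eq fun a => by
    rw [algebraMap_poly_FBar, Polynomial.algebraMap_apply, Polynomial.aeval_C]
    rfl

lemma algebraMap_poly_FBar_injective : Function.Injective (algebraMap L[X] (FBar L N)) := by
  rw [injective_iff_map_eq_zero]
  intro p hp
  by_contra hne
  apply aeval_jqModC_ne_zero L hne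
  have h1 := congrArg (fun x : FBar L N => (x : LaurentSeries L)) hp
  simp only [algebraMap_poly_FBar] at h1
  rw [← coe_jBar L N]
  have h2 := Polynomial.aeval_algHom_apply
    (laurentBaseChange L (modularFunctionFieldFull N)).val (jBar L N) p
  rw [IntermediateField.coe_val] at h2
  rw [h2]
  exact h1

theorem transcendental_jBar : Transcendental L (jBar L N) := by
  rw [transcendental_iff_injective]
  exact algebraMap_poly_FBar_injective L N

instance : FaithfulSMul L[X] (FBar L N) :=
  (faithfulSMul_iff_algebraMap_injective _ _).mpr (algebraMap_poly_FBar_injective L N)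

/-- The `RatFunc L`-algebra structure on `FBar L N`. -/
instance ratFuncAlgebraFBar : Algebra (RatFunc L) (FBar L N) :=
  (IsFractionRing.lift (K := RatFunc L) (algebraMap_poly_FBar_injective L N)).toAlgebra

instance : IsScalarTower L[X] (RatFunc L) (FBar L N) :=
  IsScalarTower.of_algebraMap_eq fun p =>
    (IsFractionRing.lift_algebraMap (algebraMap_poly_FBar_injective L N) p).symm

instance : IsScalarTower L (RatFunc L) (FBar L N) := by
  refine IsScalarTower.of_algebraMap_eq fun c => ?_
  have h1 : algebraMap L (RatFunc L) c = algebraMap L[X] (RatFunc L) (C c) := by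
    rw [RatFunc.algebraMap_C]; rfl
  rw [h1, ← IsScalarTower.algebraMap_apply L[X] (RatFunc L) (FBar L N),
    algebraMap_poly_FBar, Polynomial.aeval_C]

lemma algebraMap_ratFunc_X : algebraMap (RatFunc L) (FBar L N) RatFunc.X = jBar L N := by
  rw [← RatFunc.algebraMap_X, ← IsScalarTower.algebraMap_apply L[X] (RatFunc L) (FBar L N),
    algebraMap_poly_FBar, Polynomial.aeval_X]

/-- The finite chart: the integral closure of `L[j]` in `FBar L N`. -/
abbrev SBar : Subalgebra L[X] (FBar L N) := integralClosure L[X] (FBar L N)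

/-- The chart at infinity: the integral closure of `Ainf L` in `FBar L N`. -/
abbrev RInf : Subalgebra (Ainf L) (FBar L N) := integralClosure (Ainf L) (FBar L N)

instance : IsScalarTower L (SBar L N) (FBar L N) :=
  IsScalarTower.of_algebraMap_eq fun _ => rfl

instance : IsScalarTower (Ainf L) (RatFunc L) (FBar L N) :=
  IsScalarTower.of_algebraMap_eq fun _ => rfl

instance : IsScalarTower L (Ainf L) (FBar L N) :=
  IsScalarTower.of_algebraMap_eq fun a => by
    rw [IsScalarTower.algebraMap_apply L (RatFunc L) (FBar L N)]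
    rfl

instance : Algebra L (RInf L N) := Subalgebra.algebra' (RInf L N)

instance : IsScalarTower L (RInf L N) (FBar L N) :=
  IsScalarTower.of_algebraMap_eq fun _ => rfl

example : Algebra L (SBar L N) := inferInstance
example : IsScalarTower L L[X] (SBar L N) := inferInstance
example : IsScalarTower L (Ainf L) (RInf L N) := inferInstance

section Instances

variable [CharZero L]

instance : Module.IsTorsionFree L[X] (SBar L N) := by
  have hinj : Function.Injective (algebraMap L[X] (SBar L N)) := by
    intro a b hab
    have h2 := congrArg (algebraMap (SBar L N) (FBar L N)) hab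
    rw [← IsScalarTower.algebraMap_apply, ← IsScalarTower.algebraMap_apply] at h2
    exact algebraMap_poly_FBar_injective L N h2
  exact Module.isTorsionFree_iff_algebraMap_injective.mpr hinj

instance : Module.IsTorsionFree (Ainf L) (RInf L N) := by
  have hinj : Function.Injective (algebraMap (Ainf L) (RInf L N)) := by
    intro a b hab
    have h2 := congrArg (algebraMap (RInf L N) (FBar L N)) hab
    rw [← IsScalarTower.algebraMap_apply, ← IsScalarTower.algebraMap_apply,
      IsScalarTower.algebraMap_apply (Ainf L) (RatFunc L) (FBar L N),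
      IsScalarTower.algebraMap_apply (Ainf L) (RatFunc L) (FBar L N)] at h2
    exact Subtype.ext ((algebraMap (RatFunc L) (FBar L N)).injective h2)
  exact Module.isTorsionFree_iff_algebraMap_injective.mpr hinj

example : Algebra.IsIntegral L[X] (SBar L N) := inferInstance

variable [FiniteDimensional (RatFunc L) (FBar L N)]

instance : IsFractionRing (SBar L N) (FBar L N) :=
  integralClosure.isFractionRing_of_finite_extension (RatFunc L) (FBar L N)

instance : IsDedekindDomain (SBar L N) :=
  integralClosure.isDedekindDomain L[X] (RatFunc L) (FBar L N)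

instance : Module.Finite L[X] (SBar L N) :=
  IsIntegralClosure.finite L[X] (RatFunc L) (FBar L N) (SBar L N)

lemma finrank_SBar :
    Module.finrank L[X] (SBar L N) = Module.finrank (RatFunc L) (FBar L N) :=
  (IsFractionRing.finrank_eq L[X] (RatFunc L) (SBar L N) (FBar L N)).symm

instance : IsFractionRing (RInf L N) (FBar L N) :=
  integralClosure.isFractionRing_of_finite_extension (RatFunc L) (FBar L N)

instance : IsDedekindDomain (RInf L N) :=
  integralClosure.isDedekindDomain (Ainf L) (RatFunc L) (FBar L N)

instance : Module.Finite (Ainf L) (RInf L N) :=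
  IsIntegralClosure.finite (Ainf L) (RatFunc L) (FBar L N) (RInf L N)

lemma finrank_RInf :
    Module.finrank (Ainf L) (RInf L N) = Module.finrank (RatFunc L) (FBar L N) :=
  (IsFractionRing.finrank_eq (Ainf L) (RatFunc L) (RInf L N) (FBar L N)).symm

end Instances

section Comparison

attribute [local instance] Genus.cosetFintype

variable {L} (e : L →+* ℂ)

/-- The comparison map to the analytic function field. -/
def ΦBar : FBar L N →+* WH0.FunField (Gamma0 N) := toFunField N e

lemma ΦBar_injective : Function.Injective (ΦBar N e) := (ΦBar N e).injective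

lemma ΦBar_algebraMap (a : L) :
    ΦBar N e (algebraMap L (FBar L N) a) =
      algebraMap _ (WH0.FunField (Gamma0 N)) (algebraMap ℂ (WH0 (Gamma0 N)) (e a)) :=
  toFunField_algebraMap N e a

lemma jdWH0_one : jdWH0 N 1 (one_dvd N) = WH0.j (Gamma0 N) := by
  apply Subtype.ext
  funext z
  show jScaledFun 1 z = jInv z
  rw [jScaledFun, Function.comp_apply]
  congr 1
  apply UpperHalfPlane.ext
  rw [coe_scaleH]
  simp

lemma ΦBar_jBar :
    ΦBar N e (jBar L N) = algebraMap _ (WH0.FunField (Gamma0 N)) (WH0.j (Gamma0 N)) := by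
  rw [ΦBar, jBar, toFunField_jdBar, jdWH0_one]

lemma ΦBar_jdBar (d : ℕ) [NeZero d] (hd : d ∣ N) :
    ΦBar N e (jdBar N d hd) = algebraMap _ (WH0.FunField (Gamma0 N)) (jdWH0 N d hd) :=
  toFunField_jdBar N e d hd

/-- `ΦBar` is compatible with the polynomial algebra structures (coefficients via `e`). -/
lemma ΦBar_comp_algebraMap_poly :
    (ΦBar N e).comp (algebraMap L[X] (FBar L N)) =
      ((algebraMap (WH0 (Gamma0 N)) (WH0.FunField (Gamma0 N))).comp
        (algebraMap ℂ[X] (WH0 (Gamma0 N)))).comp (Polynomial.mapRingHom e) := by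
  apply Polynomial.ringHom_ext
  · intro a
    simp only [RingHom.coe_comp, Function.comp_apply, Polynomial.coe_mapRingHom,
      Polynomial.map_C]
    rw [algebraMap_poly_FBar, Polynomial.aeval_C, ΦBar_algebraMap, WH0.algebraMap_poly,
      Polynomial.aeval_C]
  · simp only [RingHom.coe_comp, Function.comp_apply, Polynomial.coe_mapRingHom,
      Polynomial.map_X]
    rw [algebraMap_poly_FBar, Polynomial.aeval_X, ΦBar_jBar, WH0.algebraMap_poly,
      Polynomial.aeval_X]

lemma ΦBar_algebraMap_poly (p : L[X]) :
    ΦBar N e (algebraMap L[X] (FBar L N) p) =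
      algebraMap _ (WH0.FunField (Gamma0 N))
        (algebraMap ℂ[X] (WH0 (Gamma0 N)) (p.map e)) :=
  congrArg (fun f : L[X] →+* WH0.FunField (Gamma0 N) => f p) (ΦBar_comp_algebraMap_poly N e)

/-- Elements of the finite chart map to elements integral over `ℂ[X]`. -/
lemma isIntegral_ΦBar (s : SBar L N) : IsIntegral ℂ[X] (ΦBar N e (s : FBar L N)) := by
  obtain ⟨p, hp, hps⟩ := s.2
  refine ⟨p.map (Polynomial.mapRingHom e), hp.map _, ?_⟩
  rw [Polynomial.eval₂_map]
  have h1 : (algebraMap ℂ[X] (WH0.FunField (Gamma0 N))).comp (Polynomial.mapRingHom e) =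
      (ΦBar N e).comp (algebraMap L[X] (FBar L N)) := by
    rw [ΦBar_comp_algebraMap_poly]
    rfl
  rw [h1, ← Polynomial.hom_eval₂, hps, map_zero]

lemma ΦBar_mem_range (s : SBar L N) :
    ΦBar N e (s : FBar L N) ∈
      (algebraMap (WH0 (Gamma0 N)) (WH0.FunField (Gamma0 N))).range := by
  obtain ⟨b, hb⟩ := (IsIntegralClosure.isIntegral_iff (A := WH0 (Gamma0 N))).mp
    (isIntegral_ΦBar N e s)
  exact ⟨b, hb⟩

/-- `WH0 Γ₀(N)` is isomorphic to its image in the function field. -/
def wh0RangeEquiv : WH0 (Gamma0 N) ≃+*
    (algebraMap (WH0 (Gamma0 N)) (WH0.FunField (Gamma0 N))).range :=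
  RingEquiv.ofBijective (algebraMap (WH0 (Gamma0 N)) (WH0.FunField (Gamma0 N))).rangeRestrict
    ⟨fun _ _ h => IsFractionRing.injective (WH0 (Gamma0 N)) (WH0.FunField (Gamma0 N))
        (congrArg Subtype.val h),
     (algebraMap (WH0 (Gamma0 N)) (WH0.FunField (Gamma0 N))).rangeRestrict_surjective⟩

/-- The comparison map on the finite charts. -/
def ΨBar : SBar L N →+* WH0 (Gamma0 N) :=
  ((wh0RangeEquiv N).symm : _ →+* WH0 (Gamma0 N)).comp
    (((ΦBar N e).comp (algebraMap (SBar L N) (FBar L N))).codRestrict
      (algebraMap (WH0 (Gamma0 N)) (WH0.FunField (Gamma0 N))).range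
      (fun s => ΦBar_mem_range N e s))

lemma algebraMap_ΨBar (s : SBar L N) :
    algebraMap (WH0 (Gamma0 N)) (WH0.FunField (Gamma0 N)) (ΨBar N e s) =
      ΦBar N e (s : FBar L N) := by
  have h : ∀ y : (algebraMap (WH0 (Gamma0 N)) (WH0.FunField (Gamma0 N))).range,
      algebraMap (WH0 (Gamma0 N)) (WH0.FunField (Gamma0 N)) ((wh0RangeEquiv N).symm y) = y := by
    intro y
    have := (wh0RangeEquiv N).apply_symm_apply y
    exact congrArg Subtype.val this
  simp only [ΨBar, RingHom.coe_comp, Function.comp_apply, RingHom.coe_coe]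
  rw [h]
  rfl

lemma ΨBar_injective : Function.Injective (ΨBar N e) := by
  intro a b hab
  have h := congrArg (algebraMap (WH0 (Gamma0 N)) (WH0.FunField (Gamma0 N))) hab
  rw [algebraMap_ΨBar, algebraMap_ΨBar] at h
  exact Subtype.ext (ΦBar_injective N e h)

lemma ΨBar_algebraMap_poly (p : L[X]) :
    ΨBar N e (algebraMap L[X] (SBar L N) p) =
      algebraMap ℂ[X] (WH0 (Gamma0 N)) (p.map e) := by
  apply IsFractionRing.injective (WH0 (Gamma0 N)) (WH0.FunField (Gamma0 N))
  rw [algebraMap_ΨBar, ← ΦBar_algebraMap_poly]
  rfl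

end Comparison

end Fermat.Agent.ProgramR.BarField
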