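/-
Program R / S24 (helper9), degree package, final part:
for `FBar L N = laurentBaseChange L (modularFunctionFieldFull N)` (`L` a field with an embedding
`e : L →+* ℂ`, e.g. `L = ℚ̄`) and `jBar L N = j(q) ∈ FBar L N` (helper8's `BarField/Model.lean`):
* over `RatFunc L` (helper8's `ratFuncAlgebraFBar`):
  `finiteDimensional_ratFunc_of_emb`, `finrank_ratFunc_of_emb : finrank (RatFunc L) (FBar L N) = ψ(N)`;
* over the intermediate field `L⟮jBar⟯`:
  `finiteDimensional_jBar`, `finrank_jBar : finrank L⟮jBar L N⟯ (FBar L N) = ψ(N)`;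
* the specialisations to `L = AlgebraicClosure ℚ`.
-/
import Fermat.Agent.ProgramR.BarField.DegreeUpper
import Fermat.Agent.ProgramR.BarField.Model
import Fermat.Prelude.Def_GaloisRep_ComplexConjugation

set_option autoImplicit false
set_option linter.unusedSectionVars false

noncomputable section

open Polynomial IntermediateField
open CongruenceSubgroup

namespace Fermat.Agent.ProgramR.BarField

open ModularCurve

variable (N : ℕ) [NeZero N] {L : Type*} [Field L] [Algebra ℚ L]

/-- `j̄_N = j(q^N)` as an element of the formal function field over `L`. -/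
def jNBar : FBar L N := jdBar N N dvd_rfl

lemma coeffEmb_jq : coeffEmb L jq = jqModC L := by
  rw [← jqModC_rat]
  exact map_jqModC (algebraMap ℚ L)

lemma coe_jBar' : ((jBar L N : FBar L N) : LaurentSeries L) = coeffEmb L jq := by
  rw [coe_jBar, coeffEmb_jq]

lemma coe_jNBar : ((jNBar N : FBar L N) : LaurentSeries L) = coeffEmb L (qExpand ℚ N jq) := rfl

lemma coe_aeval_jBar (p : L[X]) :
    ((aeval (jBar L N) p : FBar L N) : LaurentSeries L) = aeval (coeffEmb L jq) p := by
  have h := Polynomial.aeval_algHom_apply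
    (laurentBaseChange L (modularFunctionFieldFull N)).val (jBar L N) p
  rw [← coe_jBar' N]
  exact h.symm

lemma dedekindPsi_pos : 0 < dedekindPsi N := by
  have h := card_quotient_Gamma0 N
  rw [← h]
  exact Nat.card_pos

variable (e : L →+* ℂ)

/-- A finite family in `FBar L N` which is linearly independent over `L[j̄]` has at most `ψ(N)`
elements. -/
theorem card_le_of_poly_independent (e : L →+* ℂ) {n : ℕ} (x : Fin n → FBar L N)
    (hind : ∀ p : Fin n → L[X], ∑ i, aeval (jBar L N) (p i) * x i = 0 → ∀ i, p i = 0) :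
    n ≤ dedekindPsi N := by
  refine card_le_dedekindPsi N e (fun i ↦ (x i : LaurentSeries L)) (fun i ↦ (x i).2) ?_
  intro p hp
  refine hind p ?_
  apply Subtype.ext
  simp only [AddSubmonoidClass.coe_finsetSum, MulMemClass.coe_mul, coe_aeval_jBar,
    ZeroMemClass.coe_zero]
  exact hp

/-- A relation `∑_{k < ψ(N)} a_k(j̄) j̄_N^k = 0` with polynomial coefficients is trivial. -/
theorem eq_zero_of_sum_pow_jNBar (e : L →+* ℂ) (a : Fin (dedekindPsi N) → L[X])
    (hrel : ∑ k, aeval (jBar L N) (a k) * (jNBar (L := L) N) ^ (k : ℕ) = 0) : ∀ k, a k = 0 := by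
  classical
  set P : L[X][X] := ∑ k : Fin (dedekindPsi N), Polynomial.C (a k) * Polynomial.X ^ (k : ℕ)
    with hPdef
  have hP : evalLaurent N L P = 0 := by
    have h2 := congrArg (fun y : FBar L N ↦ (y : LaurentSeries L)) hrel
    simp only [AddSubmonoidClass.coe_finsetSum, MulMemClass.coe_mul, coe_aeval_jBar,
      SubmonoidClass.coe_pow, coe_jNBar, ZeroMemClass.coe_zero] at h2
    rw [← h2, hPdef, map_sum]
    refine Finset.sum_congr rfl fun k _ ↦ ?_
    simp only [evalLaurent, Polynomial.coe_eval₂RingHom, Polynomial.eval₂_mul,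
      Polynomial.eval₂_C, Polynomial.eval₂_pow, Polynomial.eval₂_X, polyLaurent,
      AlgHom.toRingHom_eq_coe, RingHom.coe_coe]
  have hP0 : P = 0 := by
    by_contra hP0
    have h1 := dedekindPsi_le_natDegree N e hP0 hP
    have h2 : P.natDegree < dedekindPsi N :=
      (Polynomial.natDegree_lt_iff_degree_lt hP0).mpr (Polynomial.degree_sum_fin_lt a)
    omega
  intro k
  have h1 : P.coeff (k : ℕ) = a k := by
    rw [hPdef, Polynomial.finsetSum_coeff, Finset.sum_eq_single k]
    · rw [Polynomial.coeff_C_mul, Polynomial.coeff_X_pow, if_pos rfl, mul_one]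
    · intro k' _ hk'
      rw [Polynomial.coeff_C_mul, Polynomial.coeff_X_pow, if_neg, mul_zero]
      exact fun h ↦ hk' (Fin.ext h.symm)
    · intro h
      exact absurd (Finset.mem_univ _) h
  rw [← h1, hP0, Polynomial.coeff_zero]

/-! ### Degree over `RatFunc L` -/

section RatFuncDegree

lemma algebraMap_ratFunc_poly (p : L[X]) :
    algebraMap (RatFunc L) (FBar L N) (algebraMap L[X] (RatFunc L) p) = aeval (jBar L N) p := by
  rw [← IsScalarTower.algebraMap_apply L[X] (RatFunc L) (FBar L N), algebraMap_poly_FBar]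

include e in
theorem card_le_of_linearIndependent_ratFunc (s : Finset (FBar L N))
    (hs : LinearIndependent (RatFunc L) (fun i : s ↦ (i : FBar L N))) :
    s.card ≤ dedekindPsi N := by
  classical
  set n := s.card with hn
  let x : Fin n → FBar L N := fun i ↦ (s.equivFin.symm i : s)
  have hx : LinearIndependent (RatFunc L) x := hs.comp _ s.equivFin.symm.injective
  refine card_le_of_poly_independent N e x fun p hp i ↦ ?_
  have h2 : ∑ i, (algebraMap L[X] (RatFunc L) (p i)) • x i = 0 := by
    rw [← hp]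
    refine Finset.sum_congr rfl fun i _ ↦ ?_
    rw [Algebra.smul_def, algebraMap_ratFunc_poly]
  have h3 := Fintype.linearIndependent_iff.mp hx _ h2 i
  exact (IsFractionRing.injective L[X] (RatFunc L)) (h3.trans (map_zero _).symm)

include e in
theorem linearIndependent_pow_jNBar_ratFunc :
    LinearIndependent (RatFunc L)
      (fun k : Fin (dedekindPsi N) ↦ (jNBar (L := L) N) ^ (k : ℕ)) := by
  classical
  rw [Fintype.linearIndependent_iff]
  intro c hc
  obtain ⟨d, hd⟩ := IsLocalization.exist_integer_multiples_of_finite (nonZeroDivisors L[X]) c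
  choose a ha using hd
  have hd0 : aeval (jBar L N) (d : L[X]) ≠ 0 := by
    intro h
    have := (transcendental_iff.mp (transcendental_jBar L N)) _ h
    exact nonZeroDivisors.coe_ne_zero d this
  have hrel : ∑ k, aeval (jBar L N) (a k) * (jNBar (L := L) N) ^ (k : ℕ) = 0 := by
    have h1 : ∑ k, aeval (jBar L N) (a k) * (jNBar (L := L) N) ^ (k : ℕ) =
        aeval (jBar L N) (d : L[X]) * ∑ k, c k • (jNBar (L := L) N) ^ (k : ℕ) := by
      rw [Finset.mul_sum]
      refine Finset.sum_congr rfl fun k _ ↦ ?_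
      rw [← algebraMap_ratFunc_poly, ha k, Algebra.smul_def, map_mul, algebraMap_ratFunc_poly,
        Algebra.smul_def]
      ring
    rw [h1, hc, mul_zero]
  have ha0 := eq_zero_of_sum_pow_jNBar N e a hrel
  intro k
  have h1 := ha k
  rw [ha0 k, map_zero, Algebra.smul_def] at h1
  have hd1 : algebraMap L[X] (RatFunc L) (d : L[X]) ≠ 0 := fun h ↦
    nonZeroDivisors.coe_ne_zero d
      ((IsFractionRing.injective L[X] (RatFunc L)) (h.trans (map_zero _).symm))
  exact (mul_eq_zero.mp h1.symm).resolve_left hd1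

include e in
theorem rank_ratFunc_le_of_emb :
    Module.rank (RatFunc L) (FBar L N) ≤ (dedekindPsi N : Cardinal) :=
  rank_le fun s hs ↦ card_le_of_linearIndependent_ratFunc N e s hs

include e in
/-- `FBar L N` is finite over `L(j̄)` (`RatFunc` form). -/
theorem finiteDimensional_ratFunc_of_emb : FiniteDimensional (RatFunc L) (FBar L N) := by
  rw [FiniteDimensional, ← Module.rank_lt_aleph0_iff]
  exact (rank_ratFunc_le_of_emb N e).trans_lt Cardinal.natCast_lt_aleph0

include e in
/-- **Degree** (`RatFunc` form): `[F̄_N : L(j̄)] = ψ(N)`. -/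
theorem finrank_ratFunc_of_emb :
    Module.finrank (RatFunc L) (FBar L N) = dedekindPsi N := by
  have := finiteDimensional_ratFunc_of_emb N e
  apply le_antisymm
  · exact Module.finrank_le_of_rank_le (rank_ratFunc_le_of_emb N e)
  · have h := (linearIndependent_pow_jNBar_ratFunc N e).fintype_card_le_finrank
    rwa [Fintype.card_fin] at h

end RatFuncDegree

/-! ### Degree over the intermediate field `L⟮j̄⟯` -/

section AdjoinDegree

lemma aeval_jBar_mem (p : L[X]) : aeval (jBar L N) p ∈ L⟮jBar L N⟯ :=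
  algebra_adjoin_le_adjoin L _ (Polynomial.aeval_mem_adjoin_singleton L _)

include e in
/-- Any family linearly independent over `L⟮j̄⟯` has at most `ψ(N)` elements. -/
theorem card_le_of_linearIndependent (s : Finset (FBar L N))
    (hs : LinearIndependent L⟮jBar L N⟯ (fun i : s ↦ (i : FBar L N))) :
    s.card ≤ dedekindPsi N := by
  classical
  set n := s.card with hn
  let x : Fin n → FBar L N := fun i ↦ (s.equivFin.symm i : s)
  have hx : LinearIndependent L⟮jBar L N⟯ x := hs.comp _ s.equivFin.symm.injective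
  refine card_le_of_poly_independent N e x fun p hp i ↦ ?_
  have h2 : ∑ i, (⟨aeval (jBar L N) (p i), aeval_jBar_mem N (p i)⟩ : L⟮jBar L N⟯) • x i = 0 := by
    rw [← hp]
    rfl
  have h3 := Fintype.linearIndependent_iff.mp hx _ h2
  have h4 : aeval (jBar L N) (p i) = 0 := congrArg Subtype.val (h3 i)
  exact (transcendental_iff.mp (transcendental_jBar L N)) _ h4

/-- Common denominators in `L⟮x⟯`. -/
lemma exists_common_denom_adjoin {F : Type*} [Field F] [Algebra L F] (x : F) {m : ℕ}
    (c : Fin m → L⟮x⟯) :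
    ∃ d : L[X], aeval x d ≠ 0 ∧ ∀ k, ∃ a : L[X], (c k : F) * aeval x d = aeval x a := by
  classical
  have h : ∀ k, ∃ r s : L[X], aeval x s ≠ 0 ∧ (c k : F) * aeval x s = aeval x r := by
    intro k
    obtain ⟨r, s, hrs⟩ := (mem_adjoin_simple_iff L (c k : F)).mp (c k).2
    by_cases hs : aeval x s = 0
    · refine ⟨0, 1, by simp, ?_⟩
      rw [hrs, hs, div_zero, zero_mul, map_zero]
    · exact ⟨r, s, hs, by rw [hrs, div_mul_cancel₀ _ hs]⟩
  choose r s hs hrs using h
  refine ⟨∏ k, s k, ?_, fun k ↦ ⟨r k * ∏ k' ∈ Finset.univ.erase k, s k', ?_⟩⟩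
  · rw [map_prod]
    exact Finset.prod_ne_zero_iff.mpr fun k _ ↦ hs k
  · rw [← Finset.mul_prod_erase Finset.univ s (Finset.mem_univ k), map_mul, map_mul, ← mul_assoc,
      hrs k]

include e in
/-- The powers `1, j̄_N, …, j̄_N^{ψ(N)-1}` are linearly independent over `L⟮j̄⟯`. -/
theorem linearIndependent_pow_jNBar :
    LinearIndependent L⟮jBar L N⟯
      (fun k : Fin (dedekindPsi N) ↦ (jNBar (L := L) N) ^ (k : ℕ)) := by
  classical
  rw [Fintype.linearIndependent_iff]
  intro c hc
  obtain ⟨d, hd, ha⟩ := exists_common_denom_adjoin (jBar L N) c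
  choose a ha using ha
  have hrel : ∑ k, aeval (jBar L N) (a k) * (jNBar (L := L) N) ^ (k : ℕ) = 0 := by
    have h1 : ∑ k, aeval (jBar L N) (a k) * (jNBar (L := L) N) ^ (k : ℕ) =
        aeval (jBar L N) d * ∑ k, c k • (jNBar (L := L) N) ^ (k : ℕ) := by
      rw [Finset.mul_sum]
      refine Finset.sum_congr rfl fun k _ ↦ ?_
      rw [← ha k]
      show _ = _ * ((c k : FBar L N) * _)
      ring
    rw [h1, hc, mul_zero]
  have ha0 := eq_zero_of_sum_pow_jNBar N e a hrel
  intro k
  have h1 := ha k
  rw [ha0 k, map_zero] at h1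
  have h2 := (mul_eq_zero.mp h1).resolve_right hd
  exact Subtype.ext h2

include e in
theorem rank_jBar_le :
    Module.rank L⟮jBar L N⟯ (FBar L N) ≤ (dedekindPsi N : Cardinal) :=
  rank_le fun s hs ↦ card_le_of_linearIndependent N e s hs

include e in
/-- `F̄_N` is finite over `L(j̄)`. -/
theorem finiteDimensional_jBar : FiniteDimensional L⟮jBar L N⟯ (FBar L N) := by
  rw [FiniteDimensional, ← Module.rank_lt_aleph0_iff]
  exact (rank_jBar_le N e).trans_lt Cardinal.natCast_lt_aleph0

include e in
/-- **Degree**: `[F̄_N : L(j̄)] = ψ(N)`. -/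
theorem finrank_jBar : Module.finrank L⟮jBar L N⟯ (FBar L N) = dedekindPsi N := by
  have := finiteDimensional_jBar N e
  apply le_antisymm
  · exact Module.finrank_le_of_rank_le (rank_jBar_le N e)
  · have h := (linearIndependent_pow_jNBar N e).fintype_card_le_finrank
    rwa [Fintype.card_fin] at h

end AdjoinDegree

/-! ### The case `L = ℚ̄` -/

section Qbar

/-- A field embedding `ℚ̄ → ℂ`. -/
def qbarEmb : AlgebraicClosure ℚ →+* ℂ := complexEmbedding.toRingHom

/-- `F̄_N` is finite over `ℚ̄(j̄)` (`RatFunc` form). -/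
instance finiteDimensional_ratFunc_Qbar :
    FiniteDimensional (RatFunc (AlgebraicClosure ℚ)) (FBar (AlgebraicClosure ℚ) N) :=
  finiteDimensional_ratFunc_of_emb N qbarEmb

/-- **Degree over `ℚ̄`** (`RatFunc` form). -/
theorem finrank_ratFunc_Qbar :
    Module.finrank (RatFunc (AlgebraicClosure ℚ)) (FBar (AlgebraicClosure ℚ) N) =
      dedekindPsi N :=
  finrank_ratFunc_of_emb N qbarEmb

/-- `F̄_N` is finite over `ℚ̄(j̄)`. -/
instance finiteDimensional_jBar_Qbar :
    FiniteDimensional (AlgebraicClosure ℚ)⟮jBar (AlgebraicClosure ℚ) N⟯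
      ↥(modularFunctionFieldBar N) :=
  finiteDimensional_jBar N qbarEmb

/-- **Degree over `ℚ̄`**: `[F̄_N : ℚ̄(j̄)] = ψ(N)`. -/
theorem finrank_jBar_Qbar :
    Module.finrank (AlgebraicClosure ℚ)⟮jBar (AlgebraicClosure ℚ) N⟯
      ↥(modularFunctionFieldBar N) = dedekindPsi N :=
  finrank_jBar N qbarEmb

end Qbar

end Fermat.Agent.ProgramR.BarField
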