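/-
Program R, S24 track, piece [BC-fin]/FC3 (helper1): the finite chart of the formal function field
`F̄_N` over an algebraically closed field `L ↪ ℂ`.
`SBar L N = integralClosure L[X] (FBar L N)` carries a `ChartData L (SBar L N) (Γ₀(N))`
(evaluation through `ΨBar : SBar → WH0 Γ₀(N) → Hol`), hence the numbers of places of `F̄_N` over
`j = a` are those of the classical count.
-/
import Fermat.Agent.ProgramR.BarField.Model
import Fermat.Agent.ProgramR.Analytic.Gamma0DictGen
import Fermat.Agent.ProgramR.Descent.AutFF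
import Fermat.Agent.ProgramR.S24.Bridge

set_option autoImplicit false

noncomputable section

namespace Fermat.Agent.ProgramR.BarField

open UpperHalfPlane Polynomial Module CongruenceSubgroup IsDedekindDomain ModularCurve
open Fermat.Agent.ProgramR.RHLocal
open scoped Manifold MatrixGroups

attribute [local instance] Genus.cosetFintype

variable (L : Type*) [Field L] [Algebra ℚ L] (N : ℕ) [NeZero N] [CharZero L]
  [FiniteDimensional (RatFunc L) (FBar L N)] (e : L →+* ℂ)

/-- `ΨBar` sends a denominator-cleared `j(N·)` relation to `B_N`. -/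
lemma ΨBar_mul_jN {s₁ s₂ : SBar L N}
    (h : algebraMap (SBar L N) (FBar L N) s₁ =
      jdBar N N dvd_rfl * algebraMap (SBar L N) (FBar L N) s₂) :
    ΨBar N e s₁ = jNWH0 N * ΨBar N e s₂ := by
  apply IsFractionRing.injective (WH0 (Gamma0 N)) (WH0.FunField (Gamma0 N))
  rw [map_mul, algebraMap_ΨBar, algebraMap_ΨBar, ← Descent.jdWH0_self, ← ΦBar_jdBar N e N dvd_rfl,
    ← map_mul]
  exact congrArg (ΦBar N e) h

/-- **The finite chart of `F̄_N`.** -/
def barChart : ChartData L (SBar L N) (Gamma0 N) where
  ι := e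
  ev := (WH0.toHol (Gamma0 N)).toRingHom.comp (ΨBar N e)
  ev_inj := (WH0.toHol_injective (Gamma0 N)).comp (ΨBar_injective N e)
  ev_C := by
    intro a
    show (gamma0Chart N).ev (ΨBar N e (algebraMap L[X] (SBar L N) (C a))) = _
    rw [ΨBar_algebraMap_poly, Polynomial.map_C]
    exact (gamma0Chart N).ev_C (e a)
  ev_X := by
    show (gamma0Chart N).ev (ΨBar N e (algebraMap L[X] (SBar L N) X)) = _
    rw [ΨBar_algebraMap_poly, Polynomial.map_X]
    exact (gamma0Chart N).ev_X
  ev_inv := fun s γ hγ => (gamma0Chart N).ev_inv (ΨBar N e s) γ hγ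
  sep := by
    intro g g' h
    rw [← slComp_inv_jN_eq_iff]
    obtain ⟨s₁, s₂, hs₂, hs⟩ := IsFractionRing.div_surjective (A := SBar L N)
      (jdBar (L := L) N N dvd_rfl)
    have hs₂0 : algebraMap (SBar L N) (FBar L N) s₂ ≠ 0 := by
      have := nonZeroDivisors.ne_zero hs₂
      intro h0
      exact this (IsFractionRing.injective (SBar L N) (FBar L N) (by rw [h0, map_zero]))
    have hrel : algebraMap (SBar L N) (FBar L N) s₁ =
        jdBar N N dvd_rfl * algebraMap (SBar L N) (FBar L N) s₂ := by
      rw [← hs, div_mul_cancel₀ _ hs₂0]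
    have hΨ := ΨBar_mul_jN L N e hrel
    have hHol : WH0.toHol (Gamma0 N) (ΨBar N e s₁) =
        jN N * WH0.toHol (Gamma0 N) (ΨBar N e s₂) := by
      rw [hΨ, map_mul]
      rfl
    have h1 := h s₁
    have h2 := h s₂
    change Hol.slComp g⁻¹ (WH0.toHol (Gamma0 N) (ΨBar N e s₁)) =
      Hol.slComp g'⁻¹ (WH0.toHol (Gamma0 N) (ΨBar N e s₁)) at h1
    change Hol.slComp g⁻¹ (WH0.toHol (Gamma0 N) (ΨBar N e s₂)) =
      Hol.slComp g'⁻¹ (WH0.toHol (Gamma0 N) (ΨBar N e s₂)) at h2
    rw [hHol, map_mul, map_mul, ← h2] at h1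
    have hb : Hol.slComp g⁻¹ (WH0.toHol (Gamma0 N) (ΨBar N e s₂)) ≠ 0 := by
      intro h0
      have h3 : WH0.toHol (Gamma0 N) (ΨBar N e s₂) = 0 :=
        Hol.comp_injective _ _ (by rw [map_zero]; exact h0)
      have h4 : ΨBar N e s₂ = 0 := WH0.toHol_injective (Gamma0 N) (by rw [h3, map_zero])
      have h5 : s₂ = 0 := ΨBar_injective N e (by rw [h4, map_zero])
      exact nonZeroDivisors.ne_zero hs₂ h5
    exact mul_right_cancel₀ hb h1

instance : CharZero (FractionRing L[X]) :=
  charZero_of_injective_algebraMap (algebraMap L (FractionRing L[X])).injective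

variable [IsAlgClosed L]

/-- the cardinality hypothesis of the dictionary. -/
lemma barChart_card (hdeg : finrank (RatFunc L) (FBar L N) = dedekindPsi N) :
    Fintype.card (SL(2, ℤ) ⧸ Gamma0 N) = finrank L[X] (SBar L N) := by
  rw [finrank_SBar, hdeg, Genus.card_coset N]

lemma algebraMap_SBar_X :
    algebraMap (SBar L N) (FBar L N) (algebraMap L[X] (SBar L N) X) = jBar L N := by
  rw [← IsScalarTower.algebraMap_apply L[X] (SBar L N) (FBar L N), algebraMap_poly_FBar,
    Polynomial.aeval_X]

lemma algebraMap_X_sub_C_ne_zero (a : L) : algebraMap L[X] (SBar L N) (X - C a) ≠ 0 := by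
  intro h0
  have h1 := congrArg (algebraMap (SBar L N) (FBar L N)) h0
  rw [← IsScalarTower.algebraMap_apply L[X] (SBar L N) (FBar L N), map_zero] at h1
  exact Polynomial.X_sub_C_ne_zero a (algebraMap_poly_FBar_injective L N (by rw [h1, map_zero]))

/-- number of places of `F̄_N` over `j = a` = number of primes of the finite chart over `X - a`. -/
lemma card_fibre_jBar (a : L) :
    Nat.card (fibre (K := L) (jBar L N) a) =
      Nat.card {P : HeightOneSpectrum (SBar L N) //
        algebraMap L[X] (SBar L N) (X - C a) ∈ P.asIdeal} := by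
  have h := S24.card_fibre_eq_card_primes_poly (K := L) (F := FBar L N) (R := SBar L N) a
    (algebraMap_X_sub_C_ne_zero L N a)
  rw [algebraMap_SBar_X] at h
  exact h

include e

/-- **hgen**: over a generic value of `j̄` there are `ψ(N)` places. -/
theorem card_fibre_generic (hdeg : finrank (RatFunc L) (FBar L N) = dedekindPsi N)
    (a : L) (h0 : a ≠ 0) (h1728 : a ≠ 1728) :
    Nat.card (fibre (K := L) (jBar L N) a) = dedekindPsi N := by
  rw [card_fibre_jBar]
  refine (barChart L N e).card_primes_over_generic' (barChart_card L N hdeg) a ?_ ?_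
  · show e a ≠ 0
    exact (map_ne_zero e).2 h0
  · show e a ≠ 1728
    intro h
    apply h1728
    apply e.injective
    rw [h, map_ofNat]

/-- **h0**: `3 · #{places over j̄ = 0} = ψ(N) + 2 ν₃(N)`. -/
theorem three_mul_card_fibre_zero (hdeg : finrank (RatFunc L) (FBar L N) = dedekindPsi N) :
    3 * Nat.card (fibre (K := L) (jBar L N) (0 : L)) = dedekindPsi N + 2 * nuThree N := by
  rw [card_fibre_jBar]
  exact (barChart L N e).three_mul_card_primes_over_zero' (barChart_card L N hdeg) 0 (map_zero e)

/-- **h1728**: `2 · #{places over j̄ = 1728} = ψ(N) + ν₂(N)`. -/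
theorem two_mul_card_fibre_1728 (hdeg : finrank (RatFunc L) (FBar L N) = dedekindPsi N) :
    2 * Nat.card (fibre (K := L) (jBar L N) (1728 : L)) = dedekindPsi N + nuTwo N := by
  rw [card_fibre_jBar]
  exact (barChart L N e).two_mul_card_primes_over_1728' (barChart_card L N hdeg) 1728
    (map_ofNat e 1728)

end Fermat.Agent.ProgramR.BarField
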