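import Mathlib
import Fermat.Agent.ProgramR.BarField.Model
import Fermat.Agent.ProgramR.CuspLocal.InftyField
import Fermat.Agent.ProgramR.CuspLocal.InftyFinal

/-!
# The chart at infinity of the formal model `FBar L N` (Program R, [BC-inf])

`L` algebraically closed of characteristic zero with `e : L →+* ℂ`.  The cusp expansions of
`F_N = Frac (WH0 Γ₀(N))`, composed with the comparison map `ΦBar N e : FBar L N → F_N`, form a
`FieldFamily L ℂ (FBar L N) (SL(2,ℤ) ⧸ Γ₀(N))`; the hypotheses of the orbit dictionary are inherited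
from the complex statements.  Hence `#Spec (RInf L N) = cuspCount N`.
-/

set_option autoImplicit false
set_option linter.unusedSectionVars false
set_option linter.style.haveILetI false

noncomputable section

open Polynomial Module HahnSeries IsDedekindDomain
open Matrix Matrix.SpecialLinearGroup CongruenceSubgroup
open scoped MatrixGroups ModularGroup
open Fermat.Agent.ProgramR.RR Fermat.Agent.ProgramR.Alg Fermat.Agent.ProgramR.CuspLocal
open UpperHalfPlane

namespace Fermat.Agent.ProgramR.BarField

attribute [local instance] Genus.cosetFintype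

variable {L : Type*} [Field L] [Algebra ℚ L] (N : ℕ) [NeZero N] (e : L →+* ℂ)

/-- `j(N·) = j_N`. -/
lemma jdWH0_self_eq : jdWH0 N N dvd_rfl = jNWH0 N := by
  apply Subtype.ext
  funext z
  show jScaledFun N z = (jN N : ℍ → ℂ) z
  rw [jN_apply, jScaledFun, Function.comp_apply]
  congr 1
  apply UpperHalfPlane.ext
  rw [coe_levelMat_smul, coe_scaleH]

/-- cusp expansions separate cosets already on `j_N`. -/
lemma cuspExp_jN_sep (g g' : SL(2, ℤ))
    (h1 : cuspExp N g (jNWH0 N) = cuspExp N g' (jNWH0 N)) :
    (QuotientGroup.mk g : SL(2, ℤ) ⧸ Gamma0 N) = QuotientGroup.mk g' := by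
  rw [QuotientGroup.eq, ← slComp_inv_jN_eq_iff]
  have h2 : translateHom N g (jNWH0 N) = translateHom N g' (jNWH0 N) :=
    QExp.laurentExpHom_injective (N : ℝ) (natCast_pos_real N) h1
  apply Hol.ext
  intro z
  exact congrFun (congrArg Subtype.val h2) z

/-- the comparison map, with values in helper3's model `FF ℂ B_N` of the function field. -/
def ΦFF : FBar L N →+* FF ℂ ↥(WH0 (Gamma0 N)) := ΦBar N e

lemma ΦFF_algebraMap_poly (p : L[X]) :
    ΦFF N e (algebraMap L[X] (FBar L N) p) =
      algebraMap ↥(WH0 (Gamma0 N)) (FF ℂ ↥(WH0 (Gamma0 N)))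
        (algebraMap ℂ[X] ↥(WH0 (Gamma0 N)) (p.map e)) :=
  ΦBar_algebraMap_poly N e p

lemma ΦFF_jdBar (d : ℕ) [NeZero d] (hd : d ∣ N) :
    ΦFF N e (jdBar N d hd) =
      algebraMap ↥(WH0 (Gamma0 N)) (FF ℂ ↥(WH0 (Gamma0 N))) (jdWH0 N d hd) :=
  ΦBar_jdBar N e d hd

/-- the cusp expansion at the coset `x` of an element of the formal function field. -/
def expBar (x : SL(2, ℤ) ⧸ Gamma0 N) : FBar L N →+* LaurentSeries ℂ :=
  ((gamma0Family N).expFF x).comp (ΦFF N e)

lemma expBar_poly (x : SL(2, ℤ) ⧸ Gamma0 N) (p : L[X]) :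
    expBar N e x (algebraMap L[X] (FBar L N) p) =
      (p.map e).eval₂ HahnSeries.C (gamma0Family N).J := by
  rw [expBar, RingHom.comp_apply, ΦFF_algebraMap_poly, LaurentFamily.expFF_algebraMap,
    LaurentFamily.e_polynomial]

/-- the common expansion of the rational functions. -/
def ratExpBar : RatFunc L →+* LaurentSeries ℂ :=
  (expBar N e (QuotientGroup.mk 1)).comp (algebraMap (RatFunc L) (FBar L N))

lemma expBar_ratFunc (x : SL(2, ℤ) ⧸ Gamma0 N) (r : RatFunc L) :
    expBar N e x (algebraMap (RatFunc L) (FBar L N) r) = ratExpBar N e r := by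
  have h : (expBar N e x).comp (algebraMap (RatFunc L) (FBar L N)) = ratExpBar N e := by
    apply IsLocalization.ringHom_ext (nonZeroDivisors L[X])
    refine RingHom.ext fun p => ?_
    simp only [RingHom.comp_apply, ratExpBar]
    rw [← IsScalarTower.algebraMap_apply L[X] (RatFunc L) (FBar L N), expBar_poly, expBar_poly]
  exact congrArg (fun f => f r) h

lemma ratExpBar_poly (p : L[X]) :
    ratExpBar N e (algebraMap L[X] (RatFunc L) p) =
      (p.map e).eval₂ HahnSeries.C (gamma0Family N).J := by
  rw [ratExpBar, RingHom.comp_apply,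
    ← IsScalarTower.algebraMap_apply L[X] (RatFunc L) (FBar L N), expBar_poly]

lemma ratExpBar_C (c : L) : ratExpBar N e (RatFunc.C c) = HahnSeries.C (e c) := by
  rw [← RatFunc.algebraMap_C, ratExpBar_poly, Polynomial.map_C, Polynomial.eval₂_C]

lemma ratExpBar_X : ratExpBar N e RatFunc.X = (gamma0Family N).J := by
  rw [← RatFunc.algebraMap_X, ratExpBar_poly, Polynomial.map_X, Polynomial.eval₂_X]

lemma gamma0Family_J_order : (gamma0Family N).J.order = -(N : ℤ) := cuspExp_jInv_order N 1

/-- the family of cusp expansions of the formal function field. -/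
def barFamily : FieldFamily L ℂ (FBar L N) (SL(2, ℤ) ⧸ Gamma0 N) where
  ε := e
  e := expBar N e
  ρ := ratExpBar N e
  e_rat := expBar_ratFunc N e
  ρ_C := ratExpBar_C N e
  ρ_X := by
    rw [ratExpBar_X, gamma0Family_J_order]
    have := NeZero.pos N
    omega
  sep := by
    intro x y hxy
    induction x using QuotientGroup.induction_on with
    | H g =>
      induction y using QuotientGroup.induction_on with
      | H g' =>
        apply cuspExp_jN_sep N g g'
        have h := congrArg (fun f : FBar L N →+* LaurentSeries ℂ => f (jdBar N N dvd_rfl)) hxy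
        simp only [expBar, RingHom.comp_apply, ΦFF_jdBar, LaurentFamily.expFF_algebraMap,
          jdWH0_self_eq] at h
        rwa [cuspFamily_e_mk, cuspFamily_e_mk] at h

lemma barFamily_poleOrder : (barFamily N e).poleOrder = N := by
  have h := (barFamily N e).poleOrder_spec
  have h2 : ((barFamily N e).ρ RatFunc.X).order = -(N : ℤ) := by
    show (ratExpBar N e RatFunc.X).order = _
    rw [ratExpBar_X, gamma0Family_J_order]
  rw [h2] at h
  omega

lemma barFamily_order_smul (g : Subgroup.zpowers ModularGroup.T) (x : SL(2, ℤ) ⧸ Gamma0 N)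
    (f : FBar L N) :
    ((barFamily N e).e (g • x) f).order = ((barFamily N e).e x f).order :=
  (gamma0Family N).order_expFF_eq_of_forall
    (cuspFamily_order_smul N (algebraMap_X_eq_jWH0 N) (cuspExp_sep N) g x) (ΦFF N e f)

lemma barFamily_orbSize_dvd (x : SL(2, ℤ) ⧸ Gamma0 N) :
    CenterData.orbSize (Subgroup.zpowers ModularGroup.T) x ∣ (barFamily N e).poleOrder := by
  rw [orbSize_zpowers_T, barFamily_poleOrder]
  exact width_dvd N x

lemma barFamily_supp (x : SL(2, ℤ) ⧸ Gamma0 N) (f : FBar L N) :
    (((barFamily N e).poleOrder /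
      CenterData.orbSize (Subgroup.zpowers ModularGroup.T) x : ℕ) : ℤ) ∣
      ((barFamily N e).e x f).order := by
  rw [barFamily_poleOrder]
  have h := (gamma0Family N).dvd_order_expFF_of_forall x
    (((gamma0Family N).poleOrder /
      CenterData.orbSize (Subgroup.zpowers ModularGroup.T) x : ℕ) : ℤ)
    (fun b n hn => cuspFamily_supp N (algebraMap_X_eq_jWH0 N) (cuspExp_sep N) x b n hn)
    (ΦFF N e f)
  rwa [cuspFamily_poleOrder] at h

include e in
/-- **[BC-inf], prime count**: the chart at infinity of the formal model has `cuspCount N`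
primes. -/
theorem card_heightOneSpectrum_RInf [CharZero L] [IsAlgClosed L]
    [FiniteDimensional (RatFunc L) (FBar L N)]
    (hdeg : finrank (RatFunc L) (FBar L N) = ModularCurve.dedekindPsi N) :
    Nat.card (HeightOneSpectrum (RInf L N)) = ModularCurve.cuspCount N := by
  rw [← card_T_orbits N]
  exact (barFamily N e).card_heightOneSpectrum (RInf L N)
    (by rw [hdeg, Genus.card_coset N]) (barFamily_order_smul N e)
    (barFamily_orbSize_dvd N e) (barFamily_supp N e)

end Fermat.Agent.ProgramR.BarField
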