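/-
Program R, package [BC]: rank invariance.  A family of Laurent series over a field `L` which is
linearly independent over `L` stays linearly independent over any extension field `M`
(`e : L →+* M`) after mapping the coefficients.
-/
import Mathlib
import Fermat.Prelude.Def_ModularCurve_LaurentCoeff

set_option autoImplicit false

noncomputable section

namespace Fermat.Agent.ProgramR.BarField

open ModularCurve

variable {L M : Type*} [Field L] [Field M] (e : L →+* M)

lemma coeff_sum_smul_laurent {ι : Type*} (s : Finset ι) (g : ι → M) (w : ι → LaurentSeries M)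
    (n : ℤ) : (∑ i ∈ s, g i • w i).coeff n = ∑ i ∈ s, g i * (w i).coeff n := by
  have h : ∀ (f : ι → LaurentSeries M),
      (∑ i ∈ s, f i).coeff n = ∑ i ∈ s, (f i).coeff n := fun f =>
    map_sum (HahnSeries.coeff.addMonoidHom n) f s
  rw [h]
  refine Finset.sum_congr rfl fun i _ => ?_
  rw [HahnSeries.coeff_smul, smul_eq_mul]

/-- **Rank invariance**: linear independence over `L` of Laurent series is preserved by extension
of the coefficient field. -/
theorem linearIndependent_coeffMap {ι : Type*} (v : ι → LaurentSeries L)
    (hv : LinearIndependent L v) : LinearIndependent M (fun i => coeffMap e (v i)) := by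
  classical
  let _ : Algebra L M := e.toAlgebra
  let b := Module.Basis.ofVectorSpace L M
  rw [linearIndependent_iff']
  intro s g hg i hi
  -- the `λ`-coordinates of the relation
  have key : ∀ l, ∑ j ∈ s, (b.repr (g j) l) • v j = 0 := by
    intro l
    ext n
    rw [HahnSeries.coeff_zero]
    have h1 : (∑ j ∈ s, (b.repr (g j) l) • v j).coeff n =
        ∑ j ∈ s, b.repr (g j) l * (v j).coeff n := by
      have h : ∀ (f : ι → LaurentSeries L),
          (∑ j ∈ s, f j).coeff n = ∑ j ∈ s, (f j).coeff n := fun f =>
        map_sum (HahnSeries.coeff.addMonoidHom n) f s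
      rw [h]
      refine Finset.sum_congr rfl fun j _ => ?_
      rw [HahnSeries.coeff_smul, smul_eq_mul]
    rw [h1]
    have h2 := congrArg (fun x : LaurentSeries M => x.coeff n) hg
    simp only [HahnSeries.coeff_zero] at h2
    rw [coeff_sum_smul_laurent] at h2
    have h3 : ∀ j, (coeffMap e (v j)).coeff n = e ((v j).coeff n) := fun j => rfl
    simp only [h3] at h2
    have h4 := congrArg (fun x : M => b.repr x l) h2
    simp only [map_sum, map_zero, Finsupp.coe_finsetSum, Finset.sum_apply,
      Finsupp.coe_zero, Pi.zero_apply] at h4
    rw [← h4]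
    refine Finset.sum_congr rfl fun j _ => ?_
    have h5 : g j * e ((v j).coeff n) = ((v j).coeff n) • g j := by
      rw [Algebra.smul_def, mul_comm]
      rfl
    rw [h5, map_smul, Finsupp.smul_apply, smul_eq_mul, mul_comm]
  have hzero : ∀ l, b.repr (g i) l = 0 := fun l =>
    (linearIndependent_iff'.mp hv) s (fun j => b.repr (g j) l) (key l) i hi
  have : b.repr (g i) = 0 := Finsupp.ext hzero
  exact (LinearEquiv.map_eq_zero_iff b.repr).mp this

end Fermat.Agent.ProgramR.BarField
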