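/-
Program R, package [BC], degree upper bound: for a field `L` with an embedding `e : L →+* ℂ`,
the formal function field `FBar L N` is finite over `RatFunc L` (`X ↦ j`) of degree at most
`ψ(N)`.

Idea: a family in `FBar L N` which is linearly independent over `L[X]` stays linearly independent
over `ℂ[X]` after applying `ΦBar N e` (look at `q`-expansions and use that `coeffMap e` preserves
linear independence of Laurent series), and `[Frac (WH0 Γ₀(N)) : ℂ(X)] ≤ ψ(N)`.
-/
import Mathlib
import Fermat.Prelude.Def_ModularCurve_X0ModL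
import Fermat.Agent.ProgramR.BarField.Model
import Fermat.Agent.ProgramR.BarField.RankInvariance

set_option autoImplicit false
set_option linter.unusedSectionVars false

noncomputable section

open Complex Filter Function Topology CongruenceSubgroup Polynomial Module
open UpperHalfPlane hiding I
open scoped Real Manifold MatrixGroups

namespace Fermat.Agent.ProgramR.BarField

open ModularCurve Fermat.Agent.ProgramR.QExp Fermat.Agent.ProgramR.LevelOne
  Fermat.Agent.ProgramR.RR

attribute [local instance] Genus.cosetFintype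

section QExpPoly

variable (N : ℕ) [NeZero N]

/-- The `q`-expansion of a polynomial in `j`. -/
lemma qExpFF_algebraMap_poly (p : ℂ[X]) :
    qExpFF N (algebraMap _ (WH0.FunField (Gamma0 N)) (algebraMap ℂ[X] (WH0 (Gamma0 N)) p)) =
      Polynomial.aeval (jqModC ℂ) p := by
  have h : ((qExpFF N).comp ((algebraMap (WH0 (Gamma0 N)) (WH0.FunField (Gamma0 N))).comp
      (algebraMap ℂ[X] (WH0 (Gamma0 N))))) =
      (Polynomial.aeval (jqModC ℂ) : ℂ[X] →ₐ[ℂ] LaurentSeries ℂ).toRingHom := by
    apply Polynomial.ringHom_ext
    · intro a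
      simp only [RingHom.coe_comp, Function.comp_apply, AlgHom.toRingHom_eq_coe, RingHom.coe_coe,
        Polynomial.aeval_C]
      rw [WH0.algebraMap_poly, Polynomial.aeval_C, qExpFF_const,
        algebraMap_laurentSeries_eq_single]
      rfl
    · simp only [RingHom.coe_comp, Function.comp_apply, AlgHom.toRingHom_eq_coe, RingHom.coe_coe,
        Polynomial.aeval_X]
      rw [WH0.algebraMap_poly, Polynomial.aeval_X, ← jdWH0_one, qExpFF_jdWH0, qExpand_one_apply]
  exact congrArg (fun f : ℂ[X] →+* LaurentSeries ℂ => f p) h

end QExpPoly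

variable {L : Type*} [Field L] [Algebra ℚ L] (N : ℕ) [NeZero N]

/-- The coercion `FBar L N → L((q))` of a polynomial in `jBar`. -/
lemma coe_algebraMap_poly_FBar (p : L[X]) :
    ((algebraMap L[X] (FBar L N) p : FBar L N) : LaurentSeries L) =
      Polynomial.aeval (jqModC L) p := by
  rw [algebraMap_poly_FBar, ← coe_jBar L N]
  have h2 := Polynomial.aeval_algHom_apply
    (laurentBaseChange L (modularFunctionFieldFull N)).val (jBar L N) p
  rw [IntermediateField.coe_val] at h2
  exact h2.symm

lemma coe_poly_smul_FBar (p : L[X]) (f : FBar L N) :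
    ((p • f : FBar L N) : LaurentSeries L) =
      Polynomial.aeval (jqModC L) p * (f : LaurentSeries L) := by
  rw [Algebra.smul_def, ← coe_algebraMap_poly_FBar N]
  rfl

lemma coe_sum_FBar {ι : Type*} (s : Finset ι) (f : ι → FBar L N) :
    ((∑ i ∈ s, f i : FBar L N) : LaurentSeries L) = ∑ i ∈ s, (f i : LaurentSeries L) :=
  map_sum (laurentBaseChange L (modularFunctionFieldFull N)).val f s

/-- If `f` is `L[X]`-linearly independent in `FBar L N`, the Laurent series `j^m * f i`
(`m < D`) are `L`-linearly independent. -/
lemma linearIndependent_pow_mul {ι : Type*} [Fintype ι] (f : ι → FBar L N)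
    (hf : LinearIndependent L[X] f) (D : ℕ) :
    LinearIndependent L (fun x : ι × Fin D =>
      (jqModC L) ^ (x.2 : ℕ) * ((f x.1 : FBar L N) : LaurentSeries L)) := by
  classical
  rw [Fintype.linearIndependent_iff]
  intro g hg
  rw [Fintype.sum_prod_type] at hg
  let q : ι → L[X] := fun i => ∑ m : Fin D, Polynomial.monomial (m : ℕ) (g (i, m))
  have hq : ∑ i, q i • f i = 0 := by
    apply Subtype.ext
    rw [coe_sum_FBar]
    refine Eq.trans ?_ hg
    refine Finset.sum_congr rfl fun i _ => ?_
    rw [coe_poly_smul_FBar]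
    simp only [q]
    rw [map_sum, Finset.sum_mul]
    refine Finset.sum_congr rfl fun m _ => ?_
    rw [Polynomial.aeval_monomial, mul_assoc, algebraMap_laurentSeries_eq_single,
      HahnSeries.single_zero_mul_eq_smul]
  have hq0 := Fintype.linearIndependent_iff.1 hf q hq
  rintro ⟨i, m⟩
  have h1 := congrArg (fun r : L[X] => r.coeff (m : ℕ)) (hq0 i)
  simp only [q, Polynomial.finsetSum_coeff, Polynomial.coeff_monomial, Polynomial.coeff_zero]
    at h1
  rw [Finset.sum_eq_single m] at h1
  · simpa using h1
  · intro b _ hb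
    rw [if_neg]
    intro hbm
    exact hb (Fin.ext hbm)
  · intro h; exact absurd (Finset.mem_univ m) h

/-- `ΦBar` preserves linear independence over the polynomial rings. -/
theorem linearIndependent_poly_ΦBar (e : L →+* ℂ) {ι : Type*} [Fintype ι] (f : ι → FBar L N)
    (hf : LinearIndependent L[X] f) :
    LinearIndependent ℂ[X] (fun i => ΦBar N e (f i)) := by
  classical
  rw [Fintype.linearIndependent_iff]
  intro p hp
  obtain ⟨D, hD⟩ : ∃ D : ℕ, ∀ i, (p i).natDegree < D :=
    ⟨(Finset.univ.sup fun i => (p i).natDegree) + 1, fun i =>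
      Nat.lt_succ_of_le (Finset.le_sup (f := fun i => (p i).natDegree) (Finset.mem_univ i))⟩
  have hv := linearIndependent_coeffMap e _ (linearIndependent_pow_mul N f hf D)
  rw [Fintype.linearIndependent_iff] at hv
  have key := hv (fun x => (p x.1).coeff (x.2 : ℕ)) (by
    rw [Fintype.sum_prod_type]
    have h1 : ∑ i, qExpFF N (p i • ΦBar N e (f i)) = 0 := by
      have h0 := map_sum (qExpFF N) (fun i => p i • ΦBar N e (f i)) Finset.univ
      rw [hp, (qExpFF N).map_zero] at h0
      exact h0.symm
    rw [← h1]
    refine Finset.sum_congr rfl fun i _ => ?_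
    rw [Algebra.smul_def, (qExpFF N).map_mul]
    have h2 : qExpFF N (algebraMap ℂ[X] (WH0.FunField (Gamma0 N)) (p i)) =
        Polynomial.aeval (jqModC ℂ) (p i) := qExpFF_algebraMap_poly N (p i)
    have h3 : qExpFF N (ΦBar N e (f i)) = coeffMap e ((f i : FBar L N) : LaurentSeries L) :=
      qExpFF_toFunField N e (f i)
    rw [h2, h3, Polynomial.aeval_eq_sum_range' (hD i), Finset.sum_mul, Finset.sum_range]
    refine Finset.sum_congr rfl fun m _ => ?_
    show (p i).coeff (m : ℕ) • coeffMap e (jqModC L ^ (m : ℕ) * ((f i : FBar L N) : LaurentSeries L))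
      = _
    rw [(coeffMap e).map_mul, (coeffMap e).map_pow, coeffMap_jqModC,
      ← HahnSeries.single_zero_mul_eq_smul, Algebra.smul_def, algebraMap_laurentSeries_eq_single,
      mul_assoc])
  intro i
  ext m
  rw [Polynomial.coeff_zero]
  by_cases hm : m < D
  · exact key (i, ⟨m, hm⟩)
  · exact Polynomial.coeff_eq_zero_of_natDegree_lt (lt_of_lt_of_le (hD i) (not_lt.mp hm))

section UB

attribute [local instance] FractionRing.liftAlgebra

/-- **Degree upper bound**: `FBar L N` is finite over `RatFunc L` of degree at most `ψ(N)`. -/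
theorem finrank_FBar_le (e : L →+* ℂ) :
    FiniteDimensional (RatFunc L) (FBar L N) ∧
      finrank (RatFunc L) (FBar L N) ≤ dedekindPsi N := by
  classical
  have hrank : Module.rank (RatFunc L) (FBar L N) ≤ (dedekindPsi N : Cardinal) := by
    apply rank_le
    intro s hs
    have h1 : LinearIndependent L[X] (fun i : s => (i : FBar L N)) :=
      (LinearIndependent.iff_fractionRing L[X] (RatFunc L)).2 hs
    have h2 := linearIndependent_poly_ΦBar N e _ h1
    have h3 : LinearIndependent RatC (fun i : s => ΦBar N e (i : FBar L N)) :=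
      (LinearIndependent.iff_fractionRing ℂ[X] RatC).1 h2
    have h4 := h3.fintype_card_le_finrank
    rw [Fintype.card_coe] at h4
    exact h4.trans ((WH0.finrank_funField_le (Gamma0 N)).trans_eq (Genus.card_coset N))
  have hfin : FiniteDimensional (RatFunc L) (FBar L N) :=
    Module.rank_lt_aleph0_iff.1 (hrank.trans_lt Cardinal.natCast_lt_aleph0)
  exact ⟨hfin, Module.finrank_le_of_rank_le hrank⟩

end UB

end Fermat.Agent.ProgramR.BarField
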