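/-
Program R [BC] (helper3): extension of the coefficient field preserves linear independence of
Laurent series (and of families of functions): if `v i ∈ L((q))` are `L`-linearly independent then
`coeffMap e (v i) ∈ K((q))` are `K`-linearly independent, for any ring homomorphism of fields
`e : L →+* K`.  (Mathlib + the prelude's `coeffMap` only.)
-/
import Mathlib
import Fermat.Prelude.Def_ModularCurve_LaurentCoeff

set_option autoImplicit false

namespace Fermat.Agent.ProgramR.BarField

open ModularCurve

/-- Linear independence of a family of functions `σ → L` is preserved by extension of the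
field of values (any index set `σ`). -/
theorem linearIndependent_ringHom_comp {L K σ ι : Type*} [Field L] [Field K] (e : L →+* K)
    {v : ι → σ → L} (hv : LinearIndependent L v) :
    LinearIndependent K (fun i => (fun n => e (v i n) : σ → K)) := by
  let _ : Algebra L K := e.toAlgebra
  rw [linearIndependent_iff'] at hv ⊢
  intro s c hc i hi
  rw [← Module.forall_dual_apply_eq_zero_iff L (c i)]
  intro φ
  refine hv s (fun i => φ (c i)) ?_ i hi
  funext n
  have h1 := congrFun hc n
  simp only [Finset.sum_apply, Pi.smul_apply, smul_eq_mul, Pi.zero_apply] at h1 ⊢
  have h2 := congrArg φ h1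
  rw [map_sum, map_zero] at h2
  rw [← h2]
  refine Finset.sum_congr rfl fun i _ => ?_
  have h3 : c i * e (v i n) = (v i n) • c i := by
    rw [Algebra.smul_def, mul_comm]
    rfl
  rw [h3, map_smul, smul_eq_mul, mul_comm]

/-- The coefficient function of a Laurent series, as a linear map. -/
def coeffFunLin (R : Type*) [CommRing R] : LaurentSeries R →ₗ[R] (ℤ → R) where
  toFun x n := x.coeff n
  map_add' x y := by funext n; simp
  map_smul' r x := by funext n; simp

lemma coeffFunLin_injective (R : Type*) [CommRing R] : Function.Injective (coeffFunLin R) := by
  intro x y h
  ext n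
  exact congrFun h n

/-- **Rank invariance**: `coeffMap e` preserves linear independence. -/
theorem coeffMap_linearIndependent {L K ι : Type*} [Field L] [Field K] (e : L →+* K)
    {v : ι → LaurentSeries L} (hv : LinearIndependent L v) :
    LinearIndependent K (fun i => coeffMap e (v i)) := by
  have h1 : LinearIndependent L (fun i => coeffFunLin L (v i)) :=
    hv.map' (coeffFunLin L) (LinearMap.ker_eq_bot.mpr (coeffFunLin_injective L))
  have h2 := linearIndependent_ringHom_comp e h1
  refine LinearIndependent.of_comp (coeffFunLin K) ?_
  exact h2

end Fermat.Agent.ProgramR.BarField
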