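/-
Program R, package [BC]: conversion between the `RatFunc K`-module structure and the
`K⟮x⟯`-module structure on a function field `F / K` (`x` transcendental, `X ↦ x`).
-/
import Mathlib

set_option autoImplicit false

noncomputable section

namespace Fermat.Agent.ProgramR.BarField

open Polynomial IntermediateField

variable {K F : Type*} [Field K] [Field F] [Algebra K F] (x : F)
  [Algebra (RatFunc K) F] [IsScalarTower K (RatFunc K) F]

lemma algebraMap_ratFunc_algebraMap_poly (hX : algebraMap (RatFunc K) F RatFunc.X = x)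
    (p : K[X]) :
    algebraMap (RatFunc K) F (algebraMap K[X] (RatFunc K) p) = Polynomial.aeval x p := by
  induction p using Polynomial.induction_on' with
  | add p q hp hq => rw [map_add, map_add, map_add, hp, hq]
  | monomial n a =>
    rw [← Polynomial.C_mul_X_pow_eq_monomial, map_mul, map_mul, map_pow, map_pow,
      RatFunc.algebraMap_X, hX, map_mul, map_pow, Polynomial.aeval_X, Polynomial.aeval_C,
      RatFunc.algebraMap_C]
    congr 1
    exact (IsScalarTower.algebraMap_apply K (RatFunc K) F a).symm

/-- The image of `RatFunc K` in `F` is `K⟮x⟯`. -/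
lemma fieldRange_ratFunc_eq (hX : algebraMap (RatFunc K) F RatFunc.X = x) :
    (IsScalarTower.toAlgHom K (RatFunc K) F).fieldRange = K⟮x⟯ := by
  apply le_antisymm
  · rintro _ ⟨r, rfl⟩
    show algebraMap (RatFunc K) F r ∈ K⟮x⟯
    induction r using RatFunc.induction_on with
    | f p q hq =>
      rw [map_div₀, algebraMap_ratFunc_algebraMap_poly x hX,
        algebraMap_ratFunc_algebraMap_poly x hX]
      have hmem : ∀ p : K[X], Polynomial.aeval x p ∈ K⟮x⟯ := by
        intro p
        have h1 : Polynomial.aeval x p ∈ Algebra.adjoin K {x} := by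
          rw [Algebra.adjoin_singleton_eq_range_aeval]
          exact ⟨p, rfl⟩
        exact IntermediateField.algebra_adjoin_le_adjoin K {x} h1
      exact div_mem (hmem p) (hmem q)
  · rw [IntermediateField.adjoin_simple_le_iff]
    exact ⟨RatFunc.X, hX⟩

/-- The isomorphism `RatFunc K ≃ K⟮x⟯`. -/
def ratFuncEquivAdjoin (hX : algebraMap (RatFunc K) F RatFunc.X = x) : RatFunc K ≃+* K⟮x⟯ :=
  ((AlgEquiv.ofInjectiveField (IsScalarTower.toAlgHom K (RatFunc K) F)).trans
    (IntermediateField.equivOfEq (fieldRange_ratFunc_eq x hX))).toRingEquiv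

lemma coe_ratFuncEquivAdjoin (hX : algebraMap (RatFunc K) F RatFunc.X = x) (r : RatFunc K) :
    ((ratFuncEquivAdjoin x hX r : K⟮x⟯) : F) = algebraMap (RatFunc K) F r := rfl

lemma comp_ratFuncEquivAdjoin (hX : algebraMap (RatFunc K) F RatFunc.X = x) :
    (algebraMap K⟮x⟯ F).comp (ratFuncEquivAdjoin x hX).toRingHom =
      (RingEquiv.refl F).toRingHom.comp (algebraMap (RatFunc K) F) := by
  ext r
  rfl

theorem finrank_adjoin_eq_finrank_ratFunc (hX : algebraMap (RatFunc K) F RatFunc.X = x) :
    Module.finrank K⟮x⟯ F = Module.finrank (RatFunc K) F :=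
  (Algebra.finrank_eq_of_equiv_equiv (ratFuncEquivAdjoin x hX)
    (RingEquiv.refl F) (comp_ratFuncEquivAdjoin x hX)).symm

theorem finiteDimensional_adjoin_of_ratFunc (hX : algebraMap (RatFunc K) F RatFunc.X = x)
    [FiniteDimensional (RatFunc K) F] : FiniteDimensional K⟮x⟯ F :=
  Module.Finite.of_equiv_equiv (ratFuncEquivAdjoin x hX)
    (RingEquiv.refl F) (comp_ratFuncEquivAdjoin x hX)

theorem finiteDimensional_ratFunc_of_adjoin (hX : algebraMap (RatFunc K) F RatFunc.X = x)
    [FiniteDimensional K⟮x⟯ F] : FiniteDimensional (RatFunc K) F := by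
  refine Module.Finite.of_equiv_equiv (ratFuncEquivAdjoin x hX).symm
    (RingEquiv.refl F) ?_
  ext r
  simp only [RingHom.coe_comp, Function.comp_apply, RingHom.coe_coe, RingEquiv.refl_apply]
  have := coe_ratFuncEquivAdjoin x hX ((ratFuncEquivAdjoin x hX).symm r)
  rw [← this, RingEquiv.apply_symm_apply]
  rfl

end Fermat.Agent.ProgramR.BarField
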