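/-
Program R / S24, package BC-deg, lower bound (helper7).
The degree of the formal function field `FBar L N` over `L(j)` is at least `ψ(N)`: the minimal
polynomial of `j(q^N)` over `RatFunc L` maps, through the comparison map `ΦBar` to the analytic
function field, to a multiple of the minimal polynomial of `j_N` over `ℂ(j)`, which has degree
`ψ(N)` (distinct conjugates).
-/
import Fermat.Agent.ProgramR.BarField.Model
import Fermat.Agent.ProgramR.Descent.GenJN
import Fermat.Agent.ProgramR.Descent.AutFF

set_option autoImplicit false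
set_option linter.unusedSectionVars false
set_option linter.style.haveILetI false

noncomputable section

namespace Fermat.Agent.ProgramR.BarField

open Polynomial Module CongruenceSubgroup ModularCurve UpperHalfPlane
open scoped MatrixGroups

attribute [local instance] FractionRing.liftAlgebra
attribute [local instance] Genus.cosetFintype

variable {L : Type*} [Field L] [Algebra ℚ L] (N : ℕ) [NeZero N]

/-- the coefficientwise map `L(X) → ℂ(X)` induced by `e`. -/
def ratMap (e : L →+* ℂ) : RatFunc L →+* RatC :=
  IsFractionRing.lift (K := RatFunc L)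
    (g := (algebraMap ℂ[X] RatC).comp (Polynomial.mapRingHom e))
    ((IsFractionRing.injective ℂ[X] RatC).comp (Polynomial.map_injective e e.injective))

lemma ratMap_algebraMap (e : L →+* ℂ) (p : L[X]) :
    ratMap e (algebraMap L[X] (RatFunc L) p) = algebraMap ℂ[X] RatC (p.map e) :=
  IsFractionRing.lift_algebraMap _ p

/-- `ΦBar` is semilinear over `ratMap`. -/
lemma ΦBar_algebraMap_ratFunc (e : L →+* ℂ) (r : RatFunc L) :
    ΦBar N e (algebraMap (RatFunc L) (FBar L N) r) =
      algebraMap RatC (WH0.FunField (Gamma0 N)) (ratMap e r) := by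
  have h : ((ΦBar N e).comp (algebraMap (RatFunc L) (FBar L N))) =
      (algebraMap RatC (WH0.FunField (Gamma0 N))).comp (ratMap e) := by
    apply IsLocalization.ringHom_ext (nonZeroDivisors L[X])
    refine RingHom.ext fun p => ?_
    simp only [RingHom.coe_comp, Function.comp_apply]
    rw [← IsScalarTower.algebraMap_apply L[X] (RatFunc L) (FBar L N), ΦBar_algebraMap_poly,
      ratMap_algebraMap, ← IsScalarTower.algebraMap_apply ℂ[X] RatC (WH0.FunField (Gamma0 N)),
      IsScalarTower.algebraMap_apply ℂ[X] (WH0 (Gamma0 N)) (WH0.FunField (Gamma0 N))]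
  exact congrArg (fun f : RatFunc L →+* WH0.FunField (Gamma0 N) => f r) h

/-- **BC-deg, lower bound.** -/
theorem le_finrank_FBar (e : L →+* ℂ) [FiniteDimensional (RatFunc L) (FBar L N)] :
    dedekindPsi N ≤ finrank (RatFunc L) (FBar L N) := by
  letI : Algebra (RatFunc L) RatC := (ratMap e).toAlgebra
  letI : Algebra (RatFunc L) (WH0.FunField (Gamma0 N)) :=
    ((ΦBar N e).comp (algebraMap (RatFunc L) (FBar L N))).toAlgebra
  haveI : IsScalarTower (RatFunc L) RatC (WH0.FunField (Gamma0 N)) :=
    IsScalarTower.of_algebraMap_eq fun r => ΦBar_algebraMap_ratFunc N e r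
  let Φ : FBar L N →ₐ[RatFunc L] WH0.FunField (Gamma0 N) :=
    { ΦBar N e with commutes' := fun r => rfl }
  set y : FBar L N := jdBar N N dvd_rfl with hy
  set z : WH0.FunField (Gamma0 N) :=
    algebraMap (WH0 (Gamma0 N)) (WH0.FunField (Gamma0 N)) (jNWH0 N) with hz
  have hΦy : Φ y = z := by
    show ΦBar N e (jdBar N N dvd_rfl) = z
    rw [ΦBar_jdBar, Descent.jdWH0_self]
  have hyint : IsIntegral (RatFunc L) y := Algebra.IsIntegral.isIntegral y
  have hzint : IsIntegral (RatFunc L) z := hΦy ▸ hyint.map Φ
  have h1 : minpoly (RatFunc L) z = minpoly (RatFunc L) y := by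
    rw [← hΦy]
    exact minpoly.algHom_eq Φ (ΦBar_injective N e) y
  have h2 := minpoly.dvd_map_of_isScalarTower (RatFunc L) RatC z
  have h3 : ((minpoly (RatFunc L) z).map (algebraMap (RatFunc L) RatC)) ≠ 0 :=
    (Polynomial.map_ne_zero_iff (algebraMap (RatFunc L) RatC).injective).mpr
      (minpoly.ne_zero hzint)
  have h4 := Polynomial.natDegree_le_of_dvd h2 h3
  rw [Polynomial.natDegree_map, h1, WH0.natDegree_minpoly_jN N,
    ← WH0.finrank_eq_finrank_funField, WH0.finrank_Gamma0] at h4
  exact h4.trans (minpoly.natDegree_le y)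

end Fermat.Agent.ProgramR.BarField
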