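/-
Program R, package [BC]: the degree of `FBar L N` over `L(j)` in the two shapes
(`RatFunc L`-module structure of `BarField/Model.lean` and `L⟮jBar⟯`-module structure).
-/
import Mathlib
import Fermat.Agent.ProgramR.BarField.Model
import Fermat.Agent.ProgramR.BarField.Convert

set_option autoImplicit false

noncomputable section

namespace Fermat.Agent.ProgramR.BarField

open Polynomial IntermediateField ModularCurve

variable (L : Type*) [Field L] [Algebra ℚ L] (N : ℕ) [NeZero N]

theorem finrank_adjoin_jBar :
    Module.finrank L⟮jBar L N⟯ (FBar L N) = Module.finrank (RatFunc L) (FBar L N) :=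
  finrank_adjoin_eq_finrank_ratFunc (jBar L N) (algebraMap_ratFunc_X L N)

theorem finiteDimensional_adjoin_jBar [FiniteDimensional (RatFunc L) (FBar L N)] :
    FiniteDimensional L⟮jBar L N⟯ (FBar L N) :=
  finiteDimensional_adjoin_of_ratFunc (jBar L N) (algebraMap_ratFunc_X L N)

theorem finiteDimensional_ratFunc_FBar [FiniteDimensional L⟮jBar L N⟯ (FBar L N)] :
    FiniteDimensional (RatFunc L) (FBar L N) :=
  finiteDimensional_ratFunc_of_adjoin (jBar L N) (algebraMap_ratFunc_X L N)

end Fermat.Agent.ProgramR.BarField
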