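import Mathlib
import Fermat.Agent.ProgramR.BarField.InftyBar
import Fermat.Agent.ProgramR.CuspLocal.AinfValuation
import Fermat.Agent.ProgramR.S24.Bridge

/-!
# The poles of `jBar` (Program R, [BC-inf], final form)

`Nat.card (polar jBar) = cuspCount N` for the formal model `FBar L N` of the function field of
`X₀(N)` over an algebraically closed field `L ⊆ ℂ` — the hypothesis `hinf` of
`S24.genus_eq_genusFormula_of_counts`.
-/

set_option autoImplicit false
set_option linter.unusedSectionVars false
set_option linter.style.haveILetI false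

noncomputable section

open Polynomial Module IsDedekindDomain AlgebraicCurve
open Fermat.Agent.ProgramR.RR Fermat.Agent.ProgramR.Alg Fermat.Agent.ProgramR.CuspLocal

namespace Fermat.Agent.ProgramR.BarField

attribute [local instance] Genus.cosetFintype

variable {L : Type*} [Field L] [Algebra ℚ L] (N : ℕ) [NeZero N] (e : L →+* ℂ)

lemma jBar_ne_zero : jBar L N ≠ 0 := by
  rw [← algebraMap_ratFunc_X]
  exact fun h => RatFunc.X_ne_zero
    ((map_eq_zero_iff _ (algebraMap (RatFunc L) (FBar L N)).injective).mp h)

lemma algebraMap_XinvAinf :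
    algebraMap (RInf L N) (FBar L N) (algebraMap (Ainf L) (RInf L N) XinvAinf) =
      (jBar L N)⁻¹ := by
  rw [← IsScalarTower.algebraMap_apply (Ainf L) (RInf L N) (FBar L N),
    IsScalarTower.algebraMap_apply (Ainf L) (RatFunc L) (FBar L N), ← algebraMap_ratFunc_X,
    ← map_inv₀]
  rfl

/-- the chart at infinity is finite at every pole of `jBar`. -/
lemma algebraMap_RInf_mem (v : Place L (FBar L N)) (hv : v.ord (jBar L N) < 0) (s : RInf L N) :
    algebraMap (RInf L N) (FBar L N) s ∈ v.toValuationSubring := by
  refine FF.mem_of_isIntegral_of_le v (S := Ainf L) (fun a => ?_) s.2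
  rw [IsScalarTower.algebraMap_apply (Ainf L) (RatFunc L) (FBar L N)]
  refine algebraMap_mem_of_mem_Ainf v.toValuationSubring (fun c => ?_) ?_ a.2
  · have h : algebraMap (RatFunc L) (FBar L N) (RatFunc.C c) = algebraMap L (FBar L N) c := by
      rw [IsScalarTower.algebraMap_apply L (RatFunc L) (FBar L N)]
      rfl
    rw [h]
    exact v.algebraMap_mem' c
  · rw [algebraMap_ratFunc_X, FF.mem_iff_ord_nonneg]
    omega

include e in
/-- **[BC-inf]**: the number of poles of `jBar` is the number of cusps. -/
theorem card_polar_jBar [CharZero L] [IsAlgClosed L] [FiniteDimensional (RatFunc L) (FBar L N)]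
    (hdeg : finrank (RatFunc L) (FBar L N) = ModularCurve.dedekindPsi N) :
    Nat.card (RHLocal.polar (K := L) (jBar L N)) = ModularCurve.cuspCount N := by
  rw [← card_heightOneSpectrum_RInf N e hdeg]
  refine S24.card_polar_eq_card_primes (K := L) (R := RInf L N) (jBar L N)
    (algebraMap (Ainf L) (RInf L N) XinvAinf) (algebraMap_XinvAinf N) (jBar_ne_zero N)
    (fun P => ?_) (fun v hv s => algebraMap_RInf_mem N v hv s)
  haveI := P.isPrime
  have h1 := (barFamily N e).comap_eq_base (RInf L N) P.asIdeal P.ne_bot
  have h2 := (barFamily N e).XinvAinf_mem_base (RInf L N)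
  rw [← h1] at h2
  exact h2

end Fermat.Agent.ProgramR.BarField
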